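/-
S41 / R3 / FrobProducerB (helper64, VOLUNTEER BRANCH, hedge of helper44's FrobProducer).

Prime producer for the non-Eisenstein step (P7): for open subgroups `H' ≤ H` of `G_ℚ` with `H'`
normal in `H` and `H' ≠ H`, and a finite set `S` of integers, there are a prime `l ∉ S`, a valuation
subring `A` of `ℚ̄` over `l` and a Frobenius element `σ` at `A` with `σ ∈ H`, `σ ∉ H'`.

Route: `K = ℚ̄^H`, `M = ℚ̄^{H'}` (number fields, `M/K` Galois of degree `≥ 2`);
`S14/ZetaSplit.exists_degreeOne_prime_not_split_of_isGalois` gives a degree-one prime `Q` of `K`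
outside a finite set (primes over `S`, primes ramified in `M`) which does not split completely in `M`;
a Frobenius element of `Gal(ℚ̄/K)` at a prime of `ℤ̄` over `Q` (profinite stabilizer surjectivity) is a
Frobenius element at `l = N(Q)` in the sense of the Prelude, lies in `H`, and is not in `H'` because
otherwise `Q` would have residue degree one (and ramification index one) in `M`.
-/
import Mathlib
import Fermat.Agent.Lib.Frobenius
import Fermat.Agent.S14.ZetaSplit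

set_option autoImplicit false
set_option linter.style.haveILetI false
set_option linter.unusedSectionVars false

namespace Fermat.Agent.S41.R3.FrobProducerB

open NumberField
open scoped Pointwise

abbrev Qbar := AlgebraicClosure ℚ
abbrev GQ := Qbar ≃ₐ[ℚ] Qbar

/-! ### Frobenius elements of `Gal(ℚ̄/K)` at a prime of `𝓞 K` -/

section FrobOver

variable {L : Type*} [Field L] [Algebra ℚ L]

/-- The ring of all algebraic integers of `L` (generic, so that the `ℤ`-algebra structure is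
`Ring.toIntAlgebra`, as in `Lib.Frobenius`). -/
abbrev intC (L : Type*) [Field L] : Subalgebra ℤ L := integralClosure ℤ L

/-- The inclusion of `𝓞 K` in the ring of all algebraic integers. -/
noncomputable def intIncl (F L : Type*) [Field F] [Field L] [Algebra F L] :
    𝓞 F →+* integralClosure ℤ L :=
  ((algebraMap F L).comp (algebraMap (𝓞 F) F)).codRestrict (integralClosure ℤ L)
    (fun x => (RingOfIntegers.isIntegral_coe x).map
      ((algebraMap F L).toIntAlgHom))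

theorem coe_intIncl (F L : Type*) [Field F] [Field L] [Algebra F L] (x : 𝓞 F) :
    ((intIncl F L x : integralClosure ℤ L) : L) = algebraMap F L (x : F) :=
  rfl

theorem isGalois_Qbar : IsGalois ℚ Qbar := Fermat.Agent.Lib.Frobenius.isGalois_algebraicClosure_rat

theorem isGalois_over [IsGalois ℚ L] (K : IntermediateField ℚ L) : IsGalois ↥K L :=
  IsGalois.tower_top_intermediateField K

attribute [local instance] Ideal.Quotient.field in
set_option maxHeartbeats 1000000 in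
set_option synthInstance.maxHeartbeats 200000 in
/-- **Frobenius elements over `K`**: for a nonzero prime `P` of `𝓞 K` there are a prime `𝔔` of `ℤ̄`
over `P` and `σ ∈ Gal(ℚ̄/K)` stabilising `𝔔` and acting as `x ↦ x ^ N(P)` on `ℤ̄ / 𝔔`. -/
theorem exists_frob_over [IsGalois ℚ L] (K : IntermediateField ℚ L) [NumberField ↥K] (P : Ideal (𝓞 ↥K)) [hPp : P.IsPrime] (hP0 : P ≠ ⊥) :
    ∃ (𝔔 : Ideal (integralClosure ℤ L)) (_ : 𝔔.IsPrime) (σ : L ≃ₐ[ℚ] L),
      σ ∈ K.fixingSubgroup ∧ 𝔔.comap (intIncl ↥K L) = P ∧ σ • 𝔔 = 𝔔 ∧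
        ∀ b : integralClosure ℤ L, σ • b - b ^ (Ideal.absNorm P) ∈ 𝔔 := by
  haveI : IsGalois ↥K L := isGalois_over K
  haveI : P.IsMaximal := hPp.isMaximal hP0
  letI : Algebra (𝓞 ↥K) (integralClosure ℤ L) := (intIncl ↥K L).toAlgebra
  have halg : ∀ a : 𝓞 ↥K, algebraMap (𝓞 ↥K) (integralClosure ℤ L) a = intIncl ↥K L a := fun _ => rfl
  -- integrality
  haveI : Algebra.IsIntegral (𝓞 ↥K) (integralClosure ℤ L) := by
    constructor
    intro b
    have hb : IsIntegral ℤ b := by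
      have := b.2
      exact (isIntegral_algebraMap_iff (B := L)
        (Subtype.val_injective : Function.Injective
          (algebraMap (integralClosure ℤ L) L))).mp this
    exact hb.tower_top
  -- the group and its action
  let G := L ≃ₐ[↥K] L
  haveI : SMulCommClass G (𝓞 ↥K) (integralClosure ℤ L) := by
    constructor
    intro g a b
    apply Subtype.ext
    change g ((intIncl ↥K L a : L) * (b : L)) = (intIncl ↥K L a : L) * g (b : L)
    rw [map_mul, coe_intIncl]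
    congr 1
    exact g.commutes _
  haveI : Algebra.IsInvariant (𝓞 ↥K) (integralClosure ℤ L) G := by
    refine ⟨fun b hb => ?_⟩
    have hmem : (b : L) ∈ (⊥ : IntermediateField ↥K L) := by
      rw [← InfiniteGalois.fixedField_fixingSubgroup (⊥ : IntermediateField ↥K L)]
      rintro ⟨g, -⟩
      exact congrArg Subtype.val (hb g)
    rw [IntermediateField.mem_bot] at hmem
    obtain ⟨x, hx⟩ := hmem
    have hint : IsIntegral ℤ x := by
      have h1 : IsIntegral ℤ (algebraMap ↥K L x) := hx ▸ b.2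
      exact (isIntegral_algebraMap_iff (algebraMap ↥K L).injective).mp h1
    refine ⟨⟨x, hint⟩, Subtype.ext ?_⟩
    exact hx
  letI : TopologicalSpace (integralClosure ℤ L) := ⊥
  haveI : DiscreteTopology (integralClosure ℤ L) := ⟨rfl⟩
  haveI : ContinuousSMul G (integralClosure ℤ L) := by
    rw [continuousSMul_iff_stabilizer_isOpen]
    intro b
    convert stabilizer_isOpen_of_isIntegral (K := ↥K) (L := L) (b : L) using 1
    ext g
    constructor
    · intro h
      exact MulAction.mem_stabilizer_iff.mpr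
        (congrArg Subtype.val (MulAction.mem_stabilizer_iff.mp h))
    · intro h
      exact MulAction.mem_stabilizer_iff.mpr (Subtype.ext (MulAction.mem_stabilizer_iff.mp h))
  haveI : FaithfulSMul (𝓞 ↥K) (integralClosure ℤ L) := by
    rw [faithfulSMul_iff_algebraMap_injective]
    intro a a' h
    have h' : ((a : ↥K) : L) = ((a' : ↥K) : L) :=
      congrArg (fun z : integralClosure ℤ L => (z : L)) h
    exact RingOfIntegers.ext (Subtype.ext h')
  obtain ⟨𝔔, h𝔔max, h𝔔P⟩ :=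
    Ideal.exists_maximal_ideal_liesOver_of_isIntegral (S := integralClosure ℤ L) P
  haveI : Finite (𝓞 ↥K ⧸ P) := Ideal.finiteQuotientOfFreeOfNeBot P hP0
  letI : Fintype (𝓞 ↥K ⧸ P) := Fintype.ofFinite _
  have hcard : Fintype.card (𝓞 ↥K ⧸ P) = Ideal.absNorm P := by
    rw [Ideal.absNorm_apply, Submodule.cardQuot_apply, Nat.card_eq_fintype_card]
  let frob := FiniteField.frobeniusAlgEquivOfAlgebraic (𝓞 ↥K ⧸ P) (integralClosure ℤ L ⧸ 𝔔)
  obtain ⟨σ, hσ⟩ := Ideal.Quotient.stabilizerHom_surjective_of_profinite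
    (G := G) P 𝔔 frob
  refine ⟨𝔔, inferInstance, σ.1.restrictScalars ℚ, ?_, ?_, ?_, fun b => ?_⟩
  · intro x
    exact σ.1.commutes x
  · exact (h𝔔P.over).symm
  · have := σ.2
    rw [MulAction.mem_stabilizer_iff] at this
    ext b
    have h2 : b ∈ (σ.1 • 𝔔) ↔ b ∈ 𝔔 := by rw [this]
    rw [Ideal.mem_pointwise_smul_iff_inv_smul_mem] at h2 ⊢
    exact h2
  · have h1 := DFunLike.congr_fun hσ (Ideal.Quotient.mk 𝔔 b)
    rw [Ideal.Quotient.stabilizerHom_apply, FiniteField.coe_frobeniusAlgEquivOfAlgebraic, hcard] at h1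
    change _ = (Ideal.Quotient.mk 𝔔 b) ^ (Ideal.absNorm P) at h1
    rw [← map_pow, Ideal.Quotient.eq] at h1
    exact h1

end FrobOver

/-! ### A prime with trivial Frobenius and no ramification splits completely -/

section Split

variable {K₀ M₀ : Type*} [Field K₀] [NumberField K₀] [Field M₀] [NumberField M₀] [Algebra K₀ M₀]

open Polynomial in
/-- A finite field in which every element satisfies `x ^ q = x` (`2 ≤ q`) has at most `q`
elements. -/
theorem card_le_of_forall_pow_eq {k : Type*} [Field k] [Finite k] {q : ℕ} (hq : 2 ≤ q)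
    (h : ∀ x : k, x ^ q = x) : Nat.card k ≤ q := by
  classical
  have := Fintype.ofFinite k
  have hp : (X ^ q - X : k[X]) ≠ 0 := FiniteField.X_pow_card_sub_X_ne_zero k (by omega)
  have hdeg : (X ^ q - X : k[X]).natDegree = q :=
    FiniteField.X_pow_card_sub_X_natDegree_eq k (by omega)
  have hsub : (Finset.univ : Finset k).val ⊆ (X ^ q - X : k[X]).roots := by
    intro x _
    rw [mem_roots hp, IsRoot.def, eval_sub, eval_pow, eval_X, h x, sub_self]
  have := Polynomial.card_le_degree_of_subset_roots hsub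
  rw [hdeg] at this
  rw [Nat.card_eq_fintype_card]
  exact this

/-- If every `x ∈ 𝓞 M₀` satisfies `x ≡ x ^ N(P)` modulo a prime `𝔓` over `P`, the residue degree of
`𝔓` over `P` is one. -/
theorem inertiaDeg_eq_one_of_frob (P : Ideal (𝓞 K₀)) [hPp : P.IsPrime] (hP0 : P ≠ ⊥)
    (𝔓 : Ideal (𝓞 M₀)) [h𝔓p : 𝔓.IsPrime] [h𝔓P : 𝔓.LiesOver P]
    (hfrob : ∀ x : 𝓞 M₀, x - x ^ (Ideal.absNorm P) ∈ 𝔓) :
    𝔓.inertiaDeg (𝓞 K₀) = 1 := by
  have hunder : 𝔓.under (𝓞 K₀) = P := (h𝔓P.over).symm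
  subst hunder
  have hPmax : (𝔓.under (𝓞 K₀)).IsMaximal := hPp.isMaximal hP0
  have h𝔓0 : 𝔓 ≠ ⊥ := by
    intro hbot
    apply hP0
    rw [hbot]
    exact Ideal.under_bot (𝓞 K₀) (𝓞 M₀)
  have h𝔓max : 𝔓.IsMaximal := h𝔓p.isMaximal h𝔓0
  have hfin : Finite (𝓞 K₀ ⧸ 𝔓.under (𝓞 K₀)) := Ideal.finiteQuotientOfFreeOfNeBot _ hP0
  have hfin𝔓 : Finite (𝓞 M₀ ⧸ 𝔓) := Ideal.finiteQuotientOfFreeOfNeBot 𝔓 h𝔓0
  have hq : Ideal.absNorm (𝔓.under (𝓞 K₀)) = Nat.card (𝓞 K₀ ⧸ 𝔓.under (𝓞 K₀)) := by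
    rw [Ideal.absNorm_apply, Submodule.cardQuot_apply]
  rw [Ideal.inertiaDeg_eq_of_isMaximal (𝔓.under (𝓞 K₀)) 𝔓]
  set q := Ideal.absNorm (𝔓.under (𝓞 K₀)) with hqdef
  let _ : Field (𝓞 K₀ ⧸ 𝔓.under (𝓞 K₀)) := Ideal.Quotient.field _
  let _ : Field (𝓞 M₀ ⧸ 𝔓) := Ideal.Quotient.field _
  have hq2 : 2 ≤ q := by rw [hq]; exact Finite.one_lt_card
  have hpoweq : ∀ y : 𝓞 M₀ ⧸ 𝔓, y ^ q = y := by
    intro y
    obtain ⟨x, rfl⟩ := Ideal.Quotient.mk_surjective y
    rw [← map_pow, eq_comm, Ideal.Quotient.eq]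
    exact hfrob x
  have hcard_le := card_le_of_forall_pow_eq hq2 hpoweq
  have hmodfin : Module.Finite (𝓞 K₀ ⧸ 𝔓.under (𝓞 K₀)) (𝓞 M₀ ⧸ 𝔓) := Module.Finite.of_finite
  have hcard := Module.natCard_eq_pow_finrank (K := 𝓞 K₀ ⧸ 𝔓.under (𝓞 K₀)) (V := 𝓞 M₀ ⧸ 𝔓)
  rw [hcard, ← hq] at hcard_le
  have hpos : 0 < Module.finrank (𝓞 K₀ ⧸ 𝔓.under (𝓞 K₀)) (𝓞 M₀ ⧸ 𝔓) := Module.finrank_pos
  have : Module.finrank (𝓞 K₀ ⧸ 𝔓.under (𝓞 K₀)) (𝓞 M₀ ⧸ 𝔓) ≤ 1 := by
    by_contra hlt
    push Not at hlt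
    have : q ^ 2 ≤ q := le_trans (Nat.pow_le_pow_right (by omega) hlt) hcard_le
    nlinarith
  omega

variable [IsGalois K₀ M₀]

/-- Unramified + trivial Frobenius ⇒ `e = f = 1`. -/
theorem ramIdxIn_inertiaDegIn_eq_one (P : Ideal (𝓞 K₀)) [hPp : P.IsPrime] (hP0 : P ≠ ⊥)
    (𝔓 : Ideal (𝓞 M₀)) [h𝔓p : 𝔓.IsPrime] [h𝔓P : 𝔓.LiesOver P]
    (hunr : ¬ 𝔓 ∣ differentIdeal (𝓞 K₀) (𝓞 M₀))
    (hfrob : ∀ x : 𝓞 M₀, x - x ^ (Ideal.absNorm P) ∈ 𝔓) :
    P.ramificationIdxIn (𝓞 M₀) = 1 ∧ P.inertiaDegIn (𝓞 M₀) = 1 := by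
  rw [Ideal.ramificationIdxIn_eq_ramificationIdx P 𝔓 (M₀ ≃ₐ[K₀] M₀),
    Ideal.inertiaDegIn_eq_inertiaDeg P 𝔓 (M₀ ≃ₐ[K₀] M₀)]
  refine ⟨?_, inertiaDeg_eq_one_of_frob P hP0 𝔓 hfrob⟩
  haveI : Algebra.IsUnramifiedAt (𝓞 K₀) 𝔓 := (not_dvd_differentIdeal_iff).mp hunr
  exact Ideal.ramificationIdx_eq_one_of_isUnramifiedAt

end Split

/-! ### The fields cut out by `H' ≤ H` -/

section Fields

variable (H H' : Subgroup GQ)

theorem fixingSubgroup_fixedField_of_isOpen (hH : IsOpen (H : Set GQ)) :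
    (IntermediateField.fixedField H).fixingSubgroup = H := by
  haveI := isGalois_Qbar
  exact InfiniteGalois.fixingSubgroup_fixedField (⟨H, H.isClosed_of_isOpen hH⟩ : ClosedSubgroup GQ)

theorem finiteDimensional_fixedField_of_isOpen (hH : IsOpen (H : Set GQ)) :
    FiniteDimensional ℚ (IntermediateField.fixedField H) := by
  haveI := isGalois_Qbar
  rw [← InfiniteGalois.isOpen_iff_finite, fixingSubgroup_fixedField_of_isOpen H hH]
  exact hH

theorem fixedField_le_of_le (hle : H' ≤ H) :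
    IntermediateField.fixedField H ≤ IntermediateField.fixedField H' := by
  intro x hx
  rw [IntermediateField.mem_fixedField_iff] at hx ⊢
  exact fun g hg => hx g (hle hg)

variable {H H'}

/-- `M = ℚ̄^{H'}` as an intermediate field of `ℚ̄ / K`, `K = ℚ̄^H`. -/
noncomputable def fieldM (hle : H' ≤ H) :
    IntermediateField ↥(IntermediateField.fixedField H) Qbar :=
  IntermediateField.extendScalars (fixedField_le_of_le H H' hle)

theorem mem_fieldM_iff (hle : H' ≤ H) (x : Qbar) :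
    x ∈ fieldM hle ↔ ∀ g ∈ H', g x = x := by
  change x ∈ IntermediateField.fixedField H' ↔ _
  rw [IntermediateField.mem_fixedField_iff]

theorem normal_fieldM (hH : IsOpen (H : Set GQ)) (hle : H' ≤ H)
    (hnorm : ∀ h ∈ H, ∀ x ∈ H', h * x * h⁻¹ ∈ H') :
    Normal ↥(IntermediateField.fixedField H) ↥(fieldM hle) := by
  haveI : IsGalois ℚ Qbar := isGalois_Qbar
  haveI : IsGalois ↥(IntermediateField.fixedField H) Qbar := isGalois_over _
  rw [IntermediateField.normal_iff_forall_map_le']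
  intro σ y hy
  obtain ⟨x, hx, rfl⟩ := hy
  have hx : x ∈ fieldM hle := hx
  rw [mem_fieldM_iff] at hx
  change σ x ∈ fieldM hle
  rw [mem_fieldM_iff]
  intro τ hτ
  -- `σ₀ = σ` as an element of `H`
  have hσH : σ.restrictScalars ℚ ∈ H := by
    have hmem : σ.restrictScalars ℚ ∈ (IntermediateField.fixedField H).fixingSubgroup := by
      intro z
      exact σ.commutes z
    rwa [fixingSubgroup_fixedField_of_isOpen H hH] at hmem
  have hσinv : (σ.restrictScalars ℚ)⁻¹ ∈ H := H.inv_mem hσH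
  have hconj := hnorm _ hσinv τ hτ
  rw [inv_inv] at hconj
  have h1 := hx _ hconj
  -- h1 : (σ₀⁻¹ * τ * σ₀) x = x
  have h2 : (σ.restrictScalars ℚ) (((σ.restrictScalars ℚ)⁻¹ * τ * (σ.restrictScalars ℚ)) x)
      = (σ.restrictScalars ℚ) x := by rw [h1]
  simp only [AlgEquiv.mul_apply] at h2
  rw [← AlgEquiv.mul_apply, mul_inv_cancel, AlgEquiv.one_apply] at h2
  exact h2

theorem isGalois_fieldM (hH : IsOpen (H : Set GQ)) (hle : H' ≤ H)
    (hnorm : ∀ h ∈ H, ∀ x ∈ H', h * x * h⁻¹ ∈ H') :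
    IsGalois ↥(IntermediateField.fixedField H) ↥(fieldM hle) := by
  haveI := normal_fieldM hH hle hnorm
  rw [isGalois_iff]
  exact ⟨inferInstance, inferInstance⟩

theorem two_le_finrank_fieldM (hH' : IsOpen (H' : Set GQ))
    (hle : H' ≤ H) (hne : H' ≠ H) :
    2 ≤ Module.finrank ↥(IntermediateField.fixedField H) ↥(fieldM hle) := by
  haveI : FiniteDimensional ℚ (IntermediateField.fixedField H') :=
    finiteDimensional_fixedField_of_isOpen H' hH'
  haveI : FiniteDimensional ℚ ↥(fieldM hle) := by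
    show FiniteDimensional ℚ ↥(IntermediateField.fixedField H')
    infer_instance
  haveI : FiniteDimensional ↥(IntermediateField.fixedField H) ↥(fieldM hle) :=
    Module.Finite.of_restrictScalars_finite ℚ _ _
  have hpos : 0 < Module.finrank ↥(IntermediateField.fixedField H) ↥(fieldM hle) :=
    Module.finrank_pos
  by_contra hlt
  have h1 : Module.finrank ↥(IntermediateField.fixedField H) ↥(fieldM hle) = 1 := by omega
  rw [IntermediateField.finrank_eq_one_iff] at h1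
  apply hne
  apply le_antisymm hle
  -- `H ≤ H'` : `M ≤ K`
  rw [← fixingSubgroup_fixedField_of_isOpen H' hH']
  intro h hh z
  have hz : (z : Qbar) ∈ fieldM hle := z.2
  rw [h1, IntermediateField.mem_bot] at hz
  obtain ⟨k, hk⟩ := hz
  rw [← hk]
  have := (IntermediateField.mem_fixedField_iff _ _).mp k.2 h hh
  exact this

end Fields

/-! ### The prime producer -/

section Main

open IsDedekindDomain

set_option maxHeartbeats 1000000 in
set_option synthInstance.maxHeartbeats 200000 in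
/-- **Frobenius producer.** -/
theorem frobProducer (H H' : Subgroup GQ) (hH : IsOpen (H : Set GQ)) (hH' : IsOpen (H' : Set GQ))
    (hle : H' ≤ H) (hnorm : ∀ h ∈ H, ∀ x ∈ H', h * x * h⁻¹ ∈ H') (hne : H' ≠ H) (S : Finset ℕ) :
    ∃ (l : ℕ) (A : ValuationSubring Qbar) (σ : GQ), l.Prime ∧ l ∉ S ∧ A.LiesOverPrime l ∧
      A.IsFrobeniusAt σ l ∧ σ ∈ H ∧ σ ∉ H' := by
  haveI : FiniteDimensional ℚ (IntermediateField.fixedField H) :=
    finiteDimensional_fixedField_of_isOpen H hH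
  haveI : NumberField ↥(IntermediateField.fixedField H) := NumberField.mk
  haveI : FiniteDimensional ℚ (IntermediateField.fixedField H') :=
    finiteDimensional_fixedField_of_isOpen H' hH'
  haveI : FiniteDimensional ℚ ↥(fieldM hle) := by
    show FiniteDimensional ℚ ↥(IntermediateField.fixedField H')
    infer_instance
  haveI : NumberField ↥(fieldM hle) := NumberField.mk
  haveI : IsGalois ↥(IntermediateField.fixedField H) ↥(fieldM hle) := isGalois_fieldM hH hle hnorm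
  have hn := two_le_finrank_fieldM hH' hle hne
  -- notation
  set K := IntermediateField.fixedField H with hKdef
  set M := fieldM hle with hMdef
  -- the finite set of primes to avoid
  set n : ℕ := ∏ l ∈ S.filter (fun l => l ≠ 0), l with hndef
  have hn0 : n ≠ 0 := by
    rw [hndef, Finset.prod_ne_zero_iff]
    intro l hl
    exact (Finset.mem_filter.mp hl).2
  have hspan0 : Ideal.span {(n : 𝓞 ↥K)} ≠ 0 := by
    rw [Ne, Ideal.zero_eq_bot, Ideal.span_singleton_eq_bot]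
    exact_mod_cast hn0
  have hSa : ((fun v : HeightOneSpectrum (𝓞 ↥K) => v.asIdeal) ''
      {v | v.asIdeal ∣ Ideal.span {(n : 𝓞 ↥K)}}).Finite :=
    (Ideal.finite_factors hspan0).image _
  have hdiff0 : differentIdeal (𝓞 ↥K) (𝓞 ↥M) ≠ 0 := by
    rw [Ne, Ideal.zero_eq_bot]
    exact differentIdeal_ne_bot
  have hSb : ((fun v : HeightOneSpectrum (𝓞 ↥M) => v.asIdeal.under (𝓞 ↥K)) ''
      {v | v.asIdeal ∣ differentIdeal (𝓞 ↥K) (𝓞 ↥M)}).Finite :=
    (Ideal.finite_factors hdiff0).image _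
  obtain ⟨Q, hQp, hQ0, hQS, hQn, hQc⟩ :=
    Fermat.Agent.S14.ZetaSplit.exists_degreeOne_prime_not_split_of_isGalois (K := ↥K) (M := ↥M) hn
      (hSa.union hSb).toFinset
  rw [Set.Finite.mem_toFinset, Set.mem_union, not_or] at hQS
  obtain ⟨hQSa, hQSb⟩ := hQS
  set l := Ideal.absNorm Q with hldef
  have hlQ : (l : 𝓞 ↥K) ∈ Q := Ideal.absNorm_mem Q
  -- `l ∉ S`
  have hlS : l ∉ S := by
    intro hl
    apply hQSa
    refine ⟨⟨Q, hQp, hQ0⟩, ?_, rfl⟩
    change Q ∣ Ideal.span {(n : 𝓞 ↥K)}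
    rw [Ideal.dvd_iff_le, Ideal.span_singleton_le_iff_mem]
    have hdvd : l ∣ n := by
      rw [hndef]
      exact Finset.dvd_prod_of_mem _ (Finset.mem_filter.mpr ⟨hl, hQn.ne_zero⟩)
    obtain ⟨m, hm⟩ := hdvd
    rw [hm, Nat.cast_mul]
    exact Q.mul_mem_right _ hlQ
  -- the Frobenius element
  haveI : IsGalois ℚ Qbar := isGalois_Qbar
  obtain ⟨𝔔, h𝔔p, σ, hσK, hcomap, hσ𝔔, hσfrob⟩ := exists_frob_over K Q hQ0
  haveI : 𝔔.IsPrime := h𝔔p
  have hl𝔔 : ((l : ℤ) : intC Qbar) ∈ 𝔔 := by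
    have h1 : (l : 𝓞 ↥K) ∈ 𝔔.comap (intIncl ↥K Qbar) := by rw [hcomap]; exact hlQ
    rw [Ideal.mem_comap, map_natCast] at h1
    exact_mod_cast h1
  haveI : Algebra.IsAlgebraic ℚ Qbar := AlgebraicClosure.isAlgebraic ℚ
  obtain ⟨A, hA⟩ := Fermat.Agent.Lib.Frobenius.exists_valuationSubring 𝔔 l hQn hl𝔔
  have hfrobA : A.IsFrobeniusAt σ l :=
    Fermat.Agent.Lib.Frobenius.isFrobeniusAt_of_fractions A 𝔔 hA l σ hσ𝔔 hσfrob
  have hAl : A.LiesOverPrime l := by
    have h := Fermat.Agent.Lib.Frobenius.coe_mem_nonunits_of_fractions A 𝔔 hA _ hl𝔔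
    unfold ValuationSubring.LiesOverPrime
    simpa using h
  have hσH : σ ∈ H := by
    rwa [hKdef, fixingSubgroup_fixedField_of_isOpen H hH] at hσK
  refine ⟨l, A, σ, hQn, hlS, hAl, hfrobA, hσH, fun hσH' => hQc ?_⟩
  -- the prime of `M` below `𝔔`
  let inclM : 𝓞 ↥M →+* intC Qbar := intIncl ↥M Qbar
  have hinclM : ∀ x : 𝓞 ↥M, ((inclM x : intC Qbar) : Qbar) = ((x : ↥M) : Qbar) :=
    fun _ => rfl
  have hcompat : ∀ a : 𝓞 ↥K, inclM (algebraMap (𝓞 ↥K) (𝓞 ↥M) a) = intIncl ↥K Qbar a := by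
    intro a
    apply Subtype.ext
    rfl
  set 𝔓 : Ideal (𝓞 ↥M) := 𝔔.comap inclM with h𝔓def
  haveI h𝔓p : 𝔓.IsPrime := Ideal.comap_isPrime inclM 𝔔
  haveI h𝔓Q : 𝔓.LiesOver Q := by
    constructor
    rw [← hcomap]
    ext a
    rw [Ideal.mem_comap, Ideal.under_def, Ideal.mem_comap, h𝔓def, Ideal.mem_comap, hcompat]
  have h𝔓0 : 𝔓 ≠ ⊥ := by
    intro hbot
    apply hQ0
    rw [h𝔓Q.over, hbot]
    exact Ideal.under_bot (𝓞 ↥K) (𝓞 ↥M)
  have hunr : ¬ 𝔓 ∣ differentIdeal (𝓞 ↥K) (𝓞 ↥M) := by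
    intro hdvd
    apply hQSb
    exact ⟨⟨𝔓, h𝔓p, h𝔓0⟩, hdvd, (h𝔓Q.over).symm⟩
  have hfrob𝔓 : ∀ x : 𝓞 ↥M, x - x ^ (Ideal.absNorm Q) ∈ 𝔓 := by
    intro x
    rw [h𝔓def, Ideal.mem_comap, map_sub, map_pow]
    have hfix : σ • inclM x = inclM x := by
      apply Subtype.ext
      change σ ((inclM x : intC Qbar) : Qbar) = _
      rw [hinclM]
      have hxM : ((x : ↥M) : Qbar) ∈ fieldM hle := (x : ↥M).2
      exact (mem_fieldM_iff hle _).mp hxM σ hσH'
    have := hσfrob (inclM x)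
    rwa [hfix] at this
  exact ramIdxIn_inertiaDegIn_eq_one Q hQ0 𝔓 hunr hfrob𝔓

/-- The prime producer in the literal shape of `NonEisenstein.FrobProducer` (helper43):
`FrobProducerB.frobProducer_all : NonEisenstein.FrobProducer` typechecks by `Iff.rfl`-level
unfolding of the definition. -/
theorem frobProducer_all :
    ∀ (H H' : Subgroup GQ), IsOpen (H : Set GQ) → IsOpen (H' : Set GQ) → H' ≤ H →
      (∀ h ∈ H, ∀ x ∈ H', h * x * h⁻¹ ∈ H') → H' ≠ H → ∀ S : Finset ℕ,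
        ∃ (l : ℕ) (A : ValuationSubring Qbar) (σ : GQ),
          l.Prime ∧ l ∉ S ∧ A.LiesOverPrime l ∧ A.IsFrobeniusAt σ l ∧ σ ∈ H ∧ σ ∉ H' :=
  fun H H' hH hH' hle hnorm hne S => frobProducer H H' hH hH' hle hnorm hne S

end Main

end Fermat.Agent.S41.R3.FrobProducerB
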