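/-
S41 / (P7) on the Lemma-X route: the "square class" subgroup of `G_ℚ`.

For `N ≥ 1` and a primitive `N`-th root of unity `ζ`, `sqClassOf hζ` is the set of `σ` whose
mod-`N` cyclotomic character is a square in `(ℤ/N)ˣ`.  It is an open normal subgroup containing all
squares and all commutators, and a Frobenius element at a prime `l ∤ N` lying in it forces `l` to be
a square modulo `N` (because the cyclotomic character of a Frobenius at `l` is `l`).
Mathlib + Prelude only.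
-/
import Mathlib
import Fermat.Prelude.Def_EllipticCurve_FrobeniusTrace
import Fermat.Prelude.Def_FLTPrelim_Ramification

set_option autoImplicit false

namespace Fermat.Agent.S41.R3.SquareClass

open scoped Pointwise

section General

variable {L : Type*} [Field L] [Algebra ℚ L] {N : ℕ} [NeZero N] {ζ : L}

/-- The subgroup of squares of `(ℤ/N)ˣ`. -/
def unitSquares (N : ℕ) : Subgroup (ZMod N)ˣ := (powMonoidHom 2 : (ZMod N)ˣ →* (ZMod N)ˣ).range

omit [NeZero N] in
theorem sq_mem_unitSquares (u : (ZMod N)ˣ) : u * u ∈ unitSquares N :=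
  ⟨u, by simp [powMonoidHom_apply, sq]⟩

/-- `σ` whose cyclotomic character mod `N` is a square. -/
noncomputable def sqClassOf (hζ : IsPrimitiveRoot ζ N) : Subgroup (L ≃ₐ[ℚ] L) :=
  (unitSquares N).comap (hζ.autToPow ℚ)

theorem mem_sqClassOf (hζ : IsPrimitiveRoot ζ N) (σ : L ≃ₐ[ℚ] L) :
    σ ∈ sqClassOf hζ ↔ ∃ u : (ZMod N)ˣ, u ^ 2 = hζ.autToPow ℚ σ := by
  simp [sqClassOf, unitSquares, Subgroup.mem_comap, MonoidHom.mem_range, powMonoidHom_apply]

instance sqClassOf_normal (hζ : IsPrimitiveRoot ζ N) : (sqClassOf hζ).Normal :=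
  Subgroup.Normal.comap inferInstance _

theorem mul_self_mem_sqClassOf (hζ : IsPrimitiveRoot ζ N) (σ : L ≃ₐ[ℚ] L) :
    σ * σ ∈ sqClassOf hζ := by
  change hζ.autToPow ℚ (σ * σ) ∈ unitSquares N
  rw [map_mul]
  exact sq_mem_unitSquares _

theorem commutator_mem_sqClassOf (hζ : IsPrimitiveRoot ζ N) (σ τ : L ≃ₐ[ℚ] L) :
    σ * τ * σ⁻¹ * τ⁻¹ ∈ sqClassOf hζ := by
  change hζ.autToPow ℚ (σ * τ * σ⁻¹ * τ⁻¹) ∈ unitSquares N
  have : hζ.autToPow ℚ (σ * τ * σ⁻¹ * τ⁻¹) = 1 := by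
    simp only [map_mul, map_inv]
    rw [mul_comm (hζ.autToPow ℚ σ), mul_assoc _ (hζ.autToPow ℚ σ), mul_inv_cancel, mul_one,
      mul_inv_cancel]
  rw [this]
  exact one_mem _

/-- An automorphism fixing `ζ` has trivial cyclotomic character. -/
theorem autToPow_eq_one_of_fix (hζ : IsPrimitiveRoot ζ N) (σ : L ≃ₐ[ℚ] L) (h : σ ζ = ζ) :
    hζ.autToPow ℚ σ = 1 := by
  have hspec := hζ.autToPow_spec ℚ σ
  rw [h] at hspec
  have hN : 0 < N := Nat.pos_of_ne_zero (NeZero.ne N)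
  by_cases h1 : N = 1
  · subst h1
    exact Subsingleton.elim _ _
  · have hlt : 1 < N := lt_of_le_of_ne hN (Ne.symm h1)
    have : Fact (1 < N) := ⟨hlt⟩
    apply Units.ext
    apply ZMod.val_injective
    rw [Units.val_one, ZMod.val_one]
    refine hζ.pow_inj (ZMod.val_lt _) hlt ?_
    rw [hspec, pow_one]

theorem sqClassOf_isOpen (hζ : IsPrimitiveRoot ζ N) :
    IsOpen ((sqClassOf hζ : Subgroup (L ≃ₐ[ℚ] L)) : Set (L ≃ₐ[ℚ] L)) := by
  have hN : 0 < N := Nat.pos_of_ne_zero (NeZero.ne N)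
  have hint : IsIntegral ℚ ζ := (hζ.isIntegral hN).tower_top
  have : FiniteDimensional ℚ (IntermediateField.adjoin ℚ ({ζ} : Set L)) :=
    IntermediateField.adjoin.finiteDimensional hint
  refine Subgroup.isOpen_mono ?_
    (IntermediateField.adjoin ℚ ({ζ} : Set L)).fixingSubgroup_isOpen
  intro σ hσ
  have hfix : σ ζ = ζ := by
    have := (IntermediateField.mem_fixingSubgroup_iff _ σ).1 hσ ζ
      (IntermediateField.mem_adjoin_simple_self ℚ ζ)
    simpa using this
  change hζ.autToPow ℚ σ ∈ unitSquares N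
  rw [autToPow_eq_one_of_fix hζ σ hfix]
  exact one_mem _

end General

section Frobenius

variable {L : Type*} [Field L] [Algebra ℚ L] {N : ℕ} [NeZero N] {ζ : L}

/-- An `N`-th root of unity `ξ ≠ 1` satisfies `N = (1 - ξ) * c` with `c` a polynomial in `ξ`
with integer coefficients; in particular for `ξ` in a subring `A`, `c ∈ A`. -/
theorem natCast_eq_one_sub_mul {R : Type*} [CommRing R] [IsDomain R] (ξ : R) (N : ℕ)
    (h1 : ξ ^ N = 1) (hne : ξ ≠ 1) :
    (N : R) = (1 - ξ) * ∑ i ∈ Finset.range N, ∑ j ∈ Finset.range i, ξ ^ j := by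
  have hgeom : ∑ i ∈ Finset.range N, ξ ^ i = 0 := by
    have h := geom_sum_mul ξ N
    rw [h1, sub_self] at h
    rcases mul_eq_zero.1 h with h | h
    · exact h
    · exact absurd (sub_eq_zero.1 h) hne
  have hterm : ∀ i : ℕ, (1 - ξ) * ∑ j ∈ Finset.range i, ξ ^ j = 1 - ξ ^ i := by
    intro i
    have h := geom_sum_mul ξ i
    have : (1 - ξ) * ∑ j ∈ Finset.range i, ξ ^ j = -((∑ j ∈ Finset.range i, ξ ^ j) * (ξ - 1)) := by
      ring
    rw [this, h]; ring
  rw [Finset.mul_sum]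
  simp_rw [hterm]
  rw [Finset.sum_sub_distrib, hgeom, sub_zero]
  simp

/-- If `A` lies over `q` with `q` prime to `N` and `σ` acts on the residue field of `A` as
`x ↦ x ^ l` (for any exponent `l`), then the mod-`N` cyclotomic character of `σ` is `l`. -/
theorem autToPow_of_isFrobeniusAt (hζ : IsPrimitiveRoot ζ N) {q l : ℕ} (hqN : Nat.Coprime q N)
    (A : ValuationSubring L) (hA : A.LiesOverPrime q) (σ : L ≃ₐ[ℚ] L)
    (hσ : A.IsFrobeniusAt σ l) :
    ((hζ.autToPow ℚ σ : (ZMod N)ˣ) : ZMod N) = (l : ZMod N) := by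
  classical
  have hN : 0 < N := Nat.pos_of_ne_zero (NeZero.ne N)
  obtain ⟨hσA, hfrob⟩ := hσ
  -- roots of unity lie in `A`
  have hmemA : ∀ ξ : L, ξ ^ N = 1 → ξ ∈ A := by
    intro ξ hξ
    rcases A.mem_or_inv_mem ξ with h | h
    · exact h
    · have hξ0 : ξ ≠ 0 := by
        intro h0; rw [h0, zero_pow (NeZero.ne N)] at hξ; exact zero_ne_one hξ
      have : ξ = ξ⁻¹ ^ (N - 1) := by
        rw [inv_pow]
        apply eq_inv_of_mul_eq_one_right
        rw [← pow_succ, Nat.sub_add_cancel hN, hξ]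
      rw [this]
      exact pow_mem h _
  -- the maximal ideal contains `l`
  have hlmem : ((q : ℕ) : A) ∈ IsLocalRing.maximalIdeal A := by
    rw [← ValuationSubring.coe_mem_nonunits_iff]
    have h : ((q : ℕ) : L) ∈ A.nonunits := hA
    simpa using h
  -- no nontrivial `N`-th root of unity is congruent to `1`
  have hsep : ∀ ξ : L, ∀ hξ : ξ ^ N = 1, ξ ≠ 1 →
      (1 - ⟨ξ, hmemA ξ hξ⟩ : A) ∉ IsLocalRing.maximalIdeal A := by
    intro ξ hξ hne hmem
    set x : A := ⟨ξ, hmemA ξ hξ⟩ with hx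
    have hxN : x ^ N = 1 := Subtype.ext (by simpa using hξ)
    have hx1 : x ≠ 1 := fun h => hne (by simpa [hx] using congrArg Subtype.val h)
    have hNmem : ((N : ℕ) : A) ∈ IsLocalRing.maximalIdeal A := by
      rw [natCast_eq_one_sub_mul x N hxN hx1]
      exact Ideal.mul_mem_right _ _ hmem
    -- Bezout
    have hcop : IsCoprime (q : ℤ) (N : ℤ) := Nat.isCoprime_iff_coprime.2 hqN
    obtain ⟨a, b, hab⟩ := hcop
    have h1 : (1 : A) ∈ IsLocalRing.maximalIdeal A := by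
      have : (1 : A) = (a : A) * ((q : ℕ) : A) + (b : A) * ((N : ℕ) : A) := by
        have := congrArg (fun z : ℤ => (z : A)) hab
        simp only [Int.cast_add, Int.cast_mul, Int.cast_natCast, Int.cast_one] at this
        exact this.symm
      rw [this]
      exact Ideal.add_mem _ (Ideal.mul_mem_left _ _ hlmem) (Ideal.mul_mem_left _ _ hNmem)
    exact (Ideal.ne_top_iff_one _).1 (IsLocalRing.maximalIdeal.isMaximal A).ne_top h1
  -- Frobenius congruence for `ζ`
  have hζN : ζ ^ N = 1 := hζ.pow_eq_one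
  set z : A := ⟨ζ, hmemA ζ hζN⟩ with hz
  set σ' : A.decompositionSubgroup ℚ := ⟨σ, hσA⟩ with hσ'
  have hres : IsLocalRing.residue A (σ' • z) = IsLocalRing.residue A (z ^ l) := by
    rw [IsLocalRing.ResidueField.residue_smul, map_pow]
    exact hfrob _
  set k : ℕ := ((hζ.autToPow ℚ σ : (ZMod N)ˣ) : ZMod N).val with hk
  have hspec : ζ ^ k = σ ζ := hζ.autToPow_spec ℚ σ
  have hcoe : ((σ' • z : A) : L) = σ ζ := rfl
  -- the quotient `ξ = ζ^k / ζ^l`
  by_contra hne
  have hζ0 : ζ ≠ 0 := hζ.ne_zero (NeZero.ne N)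
  set ξ : L := ζ ^ k * (ζ ^ l)⁻¹ with hξdef
  have hξN : ξ ^ N = 1 := by
    rw [hξdef, mul_pow, inv_pow, ← pow_mul, ← pow_mul, mul_comm k N, mul_comm l N, pow_mul,
      pow_mul, hζN, one_pow, one_pow, inv_one, mul_one]
  have hξ1 : ξ ≠ 1 := by
    intro h
    apply hne
    have hkl : ζ ^ k = ζ ^ l := by
      have := mul_inv_eq_one₀ (pow_ne_zero l hζ0) |>.1 (hξdef ▸ h)
      exact this
    have hmod : ζ ^ l = ζ ^ (l % N) := by
      conv_lhs => rw [← Nat.mod_add_div l N, pow_add, pow_mul, hζN, one_pow, mul_one]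
    rw [hmod] at hkl
    have hkN : k < N := ZMod.val_lt _
    have := hζ.pow_inj hkN (Nat.mod_lt l hN) hkl
    have hcast : ((k : ℕ) : ZMod N) = ((l % N : ℕ) : ZMod N) := by rw [this]
    rw [hk, ZMod.natCast_zmod_val, ZMod.natCast_mod] at hcast
    exact hcast
  apply hsep ξ hξN hξ1
  -- `1 - ξ = (z^l - σ' • z) * (z^l)⁻¹` lies in the maximal ideal
  have hzl_unit : IsUnit (z ^ l) := by
    refine IsUnit.pow _ ?_
    refine IsUnit.of_mul_eq_one (⟨ζ⁻¹, hmemA _ (by rw [inv_pow, hζN, inv_one])⟩ : A) ?_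
    exact Subtype.ext (by simp [hz, mul_inv_cancel₀ hζ0])
  have hdiff : z ^ l - σ' • z ∈ IsLocalRing.maximalIdeal A := by
    rw [← IsLocalRing.residue_eq_zero_iff, map_sub, hres, sub_self]
  obtain ⟨w, hw⟩ := hzl_unit
  have hwinv : ((w⁻¹ : Aˣ) : A) * z ^ l = 1 := by rw [← hw]; exact w.inv_mul
  have hkey : (1 - ⟨ξ, hmemA ξ hξN⟩ : A) = ((w⁻¹ : Aˣ) : A) * (z ^ l - σ' • z) := by
    have hwL : (((w⁻¹ : Aˣ) : A) : L) = (ζ ^ l)⁻¹ := by
      have h := congrArg Subtype.val hwinv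
      simp only [hz, MulMemClass.coe_mul, SubmonoidClass.coe_pow, OneMemClass.coe_one] at h
      exact eq_inv_of_mul_eq_one_left h
    apply Subtype.ext
    have e1 : ((1 - ⟨ξ, hmemA ξ hξN⟩ : A) : L) = 1 - ξ := rfl
    have e2 : ((((w⁻¹ : Aˣ) : A) * (z ^ l - σ' • z) : A) : L) = (ζ ^ l)⁻¹ * (ζ ^ l - σ ζ) := by
      rw [MulMemClass.coe_mul, hwL]
      rfl
    rw [e1, e2, ← hspec, hξdef, mul_sub, inv_mul_cancel₀ (pow_ne_zero l hζ0), mul_comm]
  rw [hkey]
  exact Ideal.mul_mem_left _ _ hdiff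

/-- The mod-`N` cyclotomic character of a Frobenius element at a prime `l ∤ N` is `l`. -/
theorem autToPow_frobenius (hζ : IsPrimitiveRoot ζ N) {l : ℕ} (hlN : Nat.Coprime l N)
    (A : ValuationSubring L) (hA : A.LiesOverPrime l) (σ : L ≃ₐ[ℚ] L)
    (hσ : A.IsFrobeniusAt σ l) :
    ((hζ.autToPow ℚ σ : (ZMod N)ˣ) : ZMod N) = (l : ZMod N) :=
  autToPow_of_isFrobeniusAt hζ hlN A hA σ hσ

/-- Inertia at a place over `q ∤ N` has trivial mod-`N` cyclotomic character. -/
theorem autToPow_eq_one_of_mem_inertia (hζ : IsPrimitiveRoot ζ N) {q : ℕ} (hqN : Nat.Coprime q N)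
    (A : ValuationSubring L) (hA : A.LiesOverPrime q) (σ : L ≃ₐ[ℚ] L)
    (hσ : σ ∈ A.inertiaSubgroupIn ℚ) : hζ.autToPow ℚ σ = 1 := by
  have hfrob : A.IsFrobeniusAt σ 1 := by
    obtain ⟨τ, hτ, rfl⟩ := hσ
    refine ⟨τ.2, fun x => ?_⟩
    have hτ' := MonoidHom.mem_ker.mp hτ
    have := congrArg (fun f : RingAut (IsLocalRing.ResidueField A) => f x) hτ'
    simpa using this
  have h := autToPow_of_isFrobeniusAt hζ hqN A hA σ hfrob
  apply Units.ext
  rw [h, Units.val_one, Nat.cast_one]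

/-- Inertia at a place over `q ∤ N` lies in the square class. -/
theorem inertia_le_sqClassOf (hζ : IsPrimitiveRoot ζ N) {q : ℕ} (hqN : Nat.Coprime q N)
    (A : ValuationSubring L) (hA : A.LiesOverPrime q) :
    A.inertiaSubgroupIn ℚ ≤ sqClassOf hζ := by
  intro σ hσ
  change hζ.autToPow ℚ σ ∈ unitSquares N
  rw [autToPow_eq_one_of_mem_inertia hζ hqN A hA σ hσ]
  exact one_mem _

/-- **Frobenius in the square class ⟹ the prime is a square modulo `N`.** -/
theorem frobenius_square_of (hζ : IsPrimitiveRoot ζ N) {l : ℕ} (hlN : Nat.Coprime l N)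
    (A : ValuationSubring L) (hA : A.LiesOverPrime l) (σ : L ≃ₐ[ℚ] L)
    (hσ : A.IsFrobeniusAt σ l) (hmem : σ ∈ sqClassOf hζ) :
    ∃ t : ℤ, (((t ^ 2 - (l : ℤ) : ℤ)) : ZMod N) = 0 := by
  obtain ⟨u, hu⟩ := (mem_sqClassOf hζ σ).1 hmem
  have h1 : ((u : ZMod N)) ^ 2 = (l : ZMod N) := by
    rw [← autToPow_frobenius hζ hlN A hA σ hσ, ← hu, Units.val_pow_eq_pow_val]
  refine ⟨((u : ZMod N)).val, ?_⟩
  push_cast
  rw [ZMod.natCast_zmod_val, h1, sub_self]

/-- Variant in the literal shape of `Ihara.exists_tau`'s hypothesis `ht2`. -/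
theorem frobenius_sq_eq_of (hζ : IsPrimitiveRoot ζ N) {l : ℕ} (hlN : Nat.Coprime l N)
    (A : ValuationSubring L) (hA : A.LiesOverPrime l) (σ : L ≃ₐ[ℚ] L)
    (hσ : A.IsFrobeniusAt σ l) (hmem : σ ∈ sqClassOf hζ) :
    ∃ t : ℤ, ((t : ℤ) : ZMod N) ^ 2 = (l : ZMod N) := by
  obtain ⟨u, hu⟩ := (mem_sqClassOf hζ σ).1 hmem
  have h1 : ((u : ZMod N)) ^ 2 = (l : ZMod N) := by
    rw [← autToPow_frobenius hζ hlN A hA σ hσ, ← hu, Units.val_pow_eq_pow_val]
  refine ⟨((u : ZMod N)).val, ?_⟩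
  push_cast
  rw [ZMod.natCast_zmod_val, h1]

end Frobenius

section Qbar

/-- Notation for the absolute Galois group of `ℚ` used in the frozen statement. -/
abbrev GQ := AlgebraicClosure ℚ ≃ₐ[ℚ] AlgebraicClosure ℚ

variable (N : ℕ) [NeZero N]

theorem exists_primitiveRoot : ∃ ζ : AlgebraicClosure ℚ, IsPrimitiveRoot ζ N :=
  haveI : NeZero ((N : ℕ) : ℚ) := ⟨Nat.cast_ne_zero.2 (NeZero.ne N)⟩
  HasEnoughRootsOfUnity.exists_primitiveRoot (AlgebraicClosure ℚ) N

/-- A chosen primitive `N`-th root of unity in `ℚ̄`. -/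
noncomputable def zetaN : AlgebraicClosure ℚ := (exists_primitiveRoot N).choose

theorem zetaN_spec : IsPrimitiveRoot (zetaN N) N := (exists_primitiveRoot N).choose_spec

/-- The square class subgroup of `G_ℚ` at level `N`. -/
noncomputable def sqClass : Subgroup GQ := sqClassOf (zetaN_spec N)

instance sqClass_normal : (sqClass N).Normal := sqClassOf_normal _

theorem sqClass_isOpen : IsOpen ((sqClass N : Subgroup GQ) : Set GQ) := sqClassOf_isOpen _

theorem mul_self_mem_sqClass (σ : GQ) : σ * σ ∈ sqClass N := mul_self_mem_sqClassOf _ σ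

theorem commutator_mem_sqClass (σ τ : GQ) : σ * τ * σ⁻¹ * τ⁻¹ ∈ sqClass N :=
  commutator_mem_sqClassOf _ σ τ

theorem conj_mem_sqClass {σ : GQ} (τ : GQ) (h : σ ∈ sqClass N) : τ * σ * τ⁻¹ ∈ sqClass N :=
  (sqClass_normal N).conj_mem σ h τ

/-- **Frobenius in `sqClass N` at a prime `l ∤ N` ⟹ `l` is a square modulo `N`**, in the literal
shape of the hypothesis of Lemma X (`((t^2 - l : ℤ) : ZMod N) = 0`). -/
theorem frobenius_square {l : ℕ} (hl : l.Prime) (hlN : ¬ l ∣ N)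
    (A : ValuationSubring (AlgebraicClosure ℚ)) (hA : A.LiesOverPrime l) (σ : GQ)
    (hσ : A.IsFrobeniusAt σ l) (hmem : σ ∈ sqClass N) :
    ∃ t : ℤ, (((t ^ 2 - (l : ℤ) : ℤ)) : ZMod N) = 0 :=
  frobenius_square_of (zetaN_spec N) ((Nat.Prime.coprime_iff_not_dvd hl).2 hlN) A hA σ hσ hmem

/-- The same with the conclusion in the literal shape of `Ihara.exists_tau`'s hypothesis `ht2`. -/
theorem frobenius_sq_eq {l : ℕ} (hl : l.Prime) (hlN : ¬ l ∣ N)
    (A : ValuationSubring (AlgebraicClosure ℚ)) (hA : A.LiesOverPrime l) (σ : GQ)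
    (hσ : A.IsFrobeniusAt σ l) (hmem : σ ∈ sqClass N) :
    ∃ t : ℤ, ((t : ℤ) : ZMod N) ^ 2 = (l : ZMod N) :=
  frobenius_sq_eq_of (zetaN_spec N) ((Nat.Prime.coprime_iff_not_dvd hl).2 hlN) A hA σ hσ hmem

/-- The kernel of the mod-`N` cyclotomic character (an open normal subgroup inside `sqClass N`). -/
noncomputable def cycloKer : Subgroup GQ := ((zetaN_spec N).autToPow ℚ).ker

instance cycloKer_normal : (cycloKer N).Normal := MonoidHom.normal_ker _

theorem cycloKer_le_sqClass : cycloKer N ≤ sqClass N := by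
  intro σ hσ
  change (zetaN_spec N).autToPow ℚ σ ∈ unitSquares N
  rw [MonoidHom.mem_ker.1 hσ]
  exact one_mem _

theorem cycloKer_isOpen : IsOpen ((cycloKer N : Subgroup GQ) : Set GQ) := by
  have hN : 0 < N := Nat.pos_of_ne_zero (NeZero.ne N)
  have hint : IsIntegral ℚ (zetaN N) := ((zetaN_spec N).isIntegral hN).tower_top
  have : FiniteDimensional ℚ (IntermediateField.adjoin ℚ ({zetaN N} : Set (AlgebraicClosure ℚ))) :=
    IntermediateField.adjoin.finiteDimensional hint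
  refine Subgroup.isOpen_mono ?_
    (IntermediateField.adjoin ℚ ({zetaN N} : Set (AlgebraicClosure ℚ))).fixingSubgroup_isOpen
  intro σ hσ
  have hfix : σ (zetaN N) = zetaN N := by
    have := (IntermediateField.mem_fixingSubgroup_iff _ σ).1 hσ (zetaN N)
      (IntermediateField.mem_adjoin_simple_self ℚ (zetaN N))
    simpa using this
  exact MonoidHom.mem_ker.2 (autToPow_eq_one_of_fix (zetaN_spec N) σ hfix)

/-- Inertia at a prime `q ∤ N` lies in the kernel of the mod-`N` cyclotomic character. -/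
theorem inertia_le_cycloKer {q : ℕ} (hq : q.Prime) (hqN : ¬ q ∣ N)
    (A : ValuationSubring (AlgebraicClosure ℚ)) (hA : A.LiesOverPrime q) :
    A.inertiaSubgroupIn ℚ ≤ cycloKer N := fun σ hσ =>
  MonoidHom.mem_ker.2 (autToPow_eq_one_of_mem_inertia (zetaN_spec N)
    ((Nat.Prime.coprime_iff_not_dvd hq).2 hqN) A hA σ hσ)

/-- Inertia at a prime `q ∤ N` lies in `sqClass N`. -/
theorem inertia_le_sqClass {q : ℕ} (hq : q.Prime) (hqN : ¬ q ∣ N)
    (A : ValuationSubring (AlgebraicClosure ℚ)) (hA : A.LiesOverPrime q) :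
    A.inertiaSubgroupIn ℚ ≤ sqClass N :=
  (inertia_le_cycloKer N hq hqN A hA).trans (cycloKer_le_sqClass N)

/-- The quotient `G_ℚ / sqClass N` has exponent two and is abelian, in the elementwise form used by
the reducibility lemma: if `sqClass N` acts trivially through a monoid hom `ρ`, then the image of
`ρ` consists of commuting involutions. -/
theorem image_exp_two {M : Type*} [Monoid M] (ρ : GQ →* M) (h : ∀ σ ∈ sqClass N, ρ σ = 1) :
    (∀ σ, ρ (σ * σ) = 1) ∧ ∀ σ τ, ρ (σ * τ) = ρ (τ * σ) := by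
  refine ⟨fun σ => h _ (mul_self_mem_sqClass N σ), fun σ τ => ?_⟩
  have hc := h _ (commutator_mem_sqClass N σ τ)
  have : σ * τ = (σ * τ * σ⁻¹ * τ⁻¹) * (τ * σ) := by group
  rw [this, map_mul, hc, one_mul]

end Qbar

end Fermat.Agent.S41.R3.SquareClass
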