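/-
S41 volunteer leaf (helper43), piece (P7') of helper59's architecture v2: the non-Eisenstein prime
can be chosen to be a SQUARE modulo `N` (needed by the Lemma-X form of Ihara's lemma).

`exists_good_square_prime` = `NonEisenstein.exists_good_frobenius` at `H₀ := sqClass N`
(helper92's `SquareClass`: the open normal subgroup of `G_ℚ` of elements whose mod-`N` cyclotomic
character is a square), with the prime producer still a hypothesis (`FrobProducer`).
-/
import Fermat.Agent.S41.R3.NonEisenstein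
import Fermat.Agent.S41.R3.SquareClass

set_option autoImplicit false

open WeierstrassCurve WeierstrassCurve.Affine WeierstrassCurve.Affine.Point

namespace Fermat.Agent.S41.R3.NonEisensteinSq

open Fermat.Agent.S41.R3.NonEisenstein Fermat.Agent.S41.R3.SquareClass

local notation "Qbar" => AlgebraicClosure ℚ

/-- **(P7')** If `E[p]` is irreducible (`p` odd) and `W` is an integral model of `E`, then for
every `N ≥ 1` and every finite set `S` of primes there is a prime `l ∉ S`, good for `W`, `l ≠ p`,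
`l ∤ N`, which is a square modulo `N` and such that `p ∤ l + 1 - a_l(W) = #W̃(𝔽_l)`. -/
theorem exists_good_square_prime (E : WeierstrassCurve ℚ) [E.IsElliptic] {W : WeierstrassCurve ℤ}
    (hFP : FrobProducer) (hW : W.IsIntegralModelOf E) {p : ℕ} (hp : p.Prime) (hp2 : p ≠ 2)
    (hirr : GaloisRepIsIrreducible (K := Qbar) ℚ (E : Affine ℚ) p)
    (N : ℕ) [NeZero N] (S : Finset ℕ) :
    ∃ l : ℕ, l.Prime ∧ l ∉ S ∧ W.IsGoodPrimeFor l ∧ l ≠ p ∧ ¬ l ∣ N ∧
      (∃ t : ℤ, ((t : ℤ) : ZMod N) ^ 2 = (l : ZMod N)) ∧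
      ¬ (p : ℤ) ∣ (l : ℤ) + 1 - W.apOfModel l := by
  obtain ⟨l, A, τ, hl, hlS, hgood, hlp, hA, hτ, hτ₀, hnd⟩ :=
    exists_good_frobenius E hFP hW hp hp2 hirr (sqClass N) (sqClass_isOpen N)
      (mul_self_mem_sqClass N) (commutator_mem_sqClass N) (S ∪ N.primeFactors)
  have hlS' : l ∉ S := fun h => hlS (Finset.mem_union_left _ h)
  have hlN : ¬ l ∣ N := fun h =>
    hlS (Finset.mem_union_right _ (Nat.mem_primeFactors.mpr ⟨hl, h, NeZero.ne N⟩))
  exact ⟨l, hl, hlS', hgood, hlp, hlN, frobenius_sq_eq N hl hlN A hA τ hτ hτ₀, hnd⟩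

end Fermat.Agent.S41.R3.NonEisensteinSq
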