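import Fermat.Agent.S13.DP.LadderRoots

/-!
# S41 / (R3): the `n`-torsion of an elliptic curve over an algebraically closed field of
characteristic zero has exactly `n²` points, `n = 2m + 1 ≥ 3` odd (volunteer file, helper44)

The tree only had `#E[n] ≤ n²` (`S13/DP/LadderRoots.ncard_torsion_le`).  Lower bound: with the
ladder polynomials `X = X_n` (monic of degree `n²`), `Z = Z_n` (degree `n² - 1`, top coefficient
`n²`) one has `x(nQ) = X(x(Q)) / Z(x(Q))`.  The Wronskian `X Z' - X' Z` has top coefficient `-n²`, so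
it is nonzero, and `f_t = X - t Z` has a multiple root for finitely many `t` only.  For a good `t`
and a point `P` with `x(P) = t` the `n²` distinct roots of `f_t` are abscissae of `n²` distinct
points `Q` with `nQ = P`, and `Q ↦ Q - Q₀` embeds them into `E[n]`.
-/

set_option autoImplicit false
set_option linter.unusedSectionVars false

namespace Fermat.Agent.S41.R3.CardTorsion

open Polynomial Fermat.Agent.S13.XOnlyGen Fermat.Agent.S13.DP.Ladder Fermat.Agent.S13.DP.LadderDeg
  Fermat.Agent.S13.DP.LadderRoots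

section Lead

variable {R : Type*} [CommRing R]

lemma isLead_derivative {f : R[X]} {d : ℕ} {c : R} (h : IsLead f (d + 1) c) :
    IsLead (derivative f) d (c * ((d : R) + 1)) := by
  refine ⟨(natDegree_derivative_le f).trans ?_, ?_⟩
  · have := h.1
    omega
  · rw [coeff_derivative, h.2]

/-- The Wronskian of a monic polynomial of degree `e + 2` and a polynomial of degree `e + 1` with
top coefficient `e + 2` has top coefficient `-(e + 2)` in degree `2e + 2`. -/
lemma isLead_wronskian {X Z : R[X]} {e : ℕ} (hX : IsLead X (e + 2) 1)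
    (hZ : IsLead Z (e + 1) ((e : R) + 2)) :
    IsLead (X * derivative Z - derivative X * Z) (2 * e + 2) (-((e : R) + 2)) := by
  have hZ' := isLead_derivative hZ
  have hX' := isLead_derivative (d := e + 1) hX
  have h1 := hX.mul hZ'
  have h2 := hX'.mul hZ
  refine (h1.sub (h2.congr' rfl (by ring) rfl)).congr' rfl (by ring) ?_
  push_cast
  ring

end Lead

variable {K : Type*} [Field K] [CharZero K] [IsAlgClosed K] [DecidableEq K]
  (W : WeierstrassCurve K) [W.IsElliptic]

/-- `f_t = X_n - t Z_n`. -/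
noncomputable def ft (n : ℕ) (t : K) : K[X] := (ladW W n).X₁ - C t * (ladW W n).Z₁

/-- The Wronskian `X_n Z_n' - X_n' Z_n`. -/
noncomputable def wr (n : ℕ) : K[X] :=
  (ladW W n).X₁ * derivative (ladW W n).Z₁ - derivative (ladW W n).X₁ * (ladW W n).Z₁

lemma isLead_ft {n : ℕ} (hn : 0 < n) (t : K) : IsLead (ft W n t) (n ^ 2) 1 := by
  have hX : IsLead (ladW W n).X₁ (n ^ 2) 1 := lead_ladX W.b₂ W.b₄ W.b₆ W.b₈ n
  have hZ : IsLead (ladW W n).Z₁ (n ^ 2 - 1) ((n : K) ^ 2) := lead_ladZ W.b₂ W.b₄ W.b₆ W.b₈ hn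
  have h2 : IsLead (C t * (ladW W n).Z₁) (n ^ 2) 0 := by
    have := ((IsLead.const t).mul hZ).weaken (e := n ^ 2) (by
      have : 0 < n ^ 2 := by positivity
      omega)
    exact this
  exact (hX.sub h2).congr' rfl rfl (by ring)

lemma ft_ne_zero {n : ℕ} (hn : 0 < n) (t : K) : ft W n t ≠ 0 := by
  intro h
  have := (isLead_ft W hn t).2
  rw [h, coeff_zero] at this
  exact zero_ne_one this

lemma natDegree_ft {n : ℕ} (hn : 0 < n) (t : K) : (ft W n t).natDegree = n ^ 2 := by
  refine le_antisymm (isLead_ft W hn t).1 (le_natDegree_of_ne_zero ?_)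
  rw [(isLead_ft W hn t).2]
  exact one_ne_zero

lemma wr_ne_zero {n : ℕ} (hn : 2 ≤ n) : wr W n ≠ 0 := by
  obtain ⟨e, he⟩ : ∃ e, n ^ 2 = e + 2 := ⟨n ^ 2 - 2, by
    have : 2 * 2 ≤ n * n := Nat.mul_le_mul hn hn
    have h2 : n ^ 2 = n * n := sq n
    omega⟩
  have hX : IsLead (ladW W n).X₁ (e + 2) 1 := he ▸ lead_ladX W.b₂ W.b₄ W.b₆ W.b₈ n
  have hZ : IsLead (ladW W n).Z₁ (e + 1) ((e : K) + 2) := by
    have h := lead_ladZ (R := K) W.b₂ W.b₄ W.b₆ W.b₈ (n := n) (by omega)
    refine h.congr' rfl (by omega) ?_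
    have : ((n ^ 2 : ℕ) : K) = ((e + 2 : ℕ) : K) := by rw [he]
    push_cast at this
    exact this
  have hw := isLead_wronskian hX hZ
  intro h
  have h2 := hw.2
  change (wr W n).coeff (2 * e + 2) = _ at h2
  rw [h, coeff_zero] at h2
  have : ((e + 2 : ℕ) : K) = 0 := by
    push_cast
    linear_combination h2
  exact absurd this (Nat.cast_ne_zero.2 (by omega))

/-- numerator and denominator of the ladder never vanish together. -/
lemma not_both_zero (n : ℕ) (x₀ : K) :
    (ladW W n).X₁.eval x₀ ≠ 0 ∨ (ladW W n).Z₁.eval x₀ ≠ 0 := by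
  obtain ⟨T, hT, hx⟩ := exists_point_xc (W := W) x₀
  have := ladX_ne_zero_or_ladZ_ne_zero hT n
  rw [hx] at this
  rwa [eval_ladW_X₁, eval_ladW_Z₁]

/-- the finite set of parameters `t` for which `f_t` may have a multiple root. -/
noncomputable def bad (n : ℕ) : Finset K :=
  (wr W n).roots.toFinset.image fun x => (ladW W n).X₁.eval x / (ladW W n).Z₁.eval x

lemma mem_bad_of_double_root {n : ℕ} (hn : 2 ≤ n) {t x₀ : K} (h0 : (ft W n t).IsRoot x₀)
    (h1 : (derivative (ft W n t)).IsRoot x₀) : t ∈ bad W n := by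
  simp only [ft, IsRoot.def, eval_sub, eval_mul, eval_C, derivative_sub, derivative_mul,
    derivative_C, zero_mul, zero_add] at h0 h1
  have hZ : (ladW W n).Z₁.eval x₀ ≠ 0 := by
    intro hZ
    rcases not_both_zero W n x₀ with h | h
    · apply h
      rw [hZ, mul_zero, sub_zero] at h0
      exact h0
    · exact h hZ
  have hw : (wr W n).IsRoot x₀ := by
    simp only [wr, IsRoot.def, eval_sub, eval_mul]
    linear_combination (eval x₀ (derivative (ladW W n).Z₁)) * h0 - (eval x₀ (ladW W n).Z₁) * h1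
  rw [bad, Finset.mem_image]
  refine ⟨x₀, ?_, ?_⟩
  · rw [Multiset.mem_toFinset, mem_roots (wr_ne_zero W hn)]
    exact hw
  · rw [div_eq_iff hZ]
    linear_combination h0

lemma nodup_roots_ft {n : ℕ} (hn : 2 ≤ n) {t : K} (ht : t ∉ bad W n) :
    (ft W n t).roots.Nodup := by
  rw [Multiset.nodup_iff_count_le_one]
  intro a
  rw [count_roots]
  by_contra h
  rw [not_le, one_lt_rootMultiplicity_iff_isRoot (ft_ne_zero W (by omega) t)] at h
  exact ht (mem_bad_of_double_root W hn h.1 h.2)

lemma card_roots_ft {n : ℕ} (hn : 0 < n) (t : K) : (ft W n t).roots.card = n ^ 2 := by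
  rw [← (IsAlgClosed.splits (ft W n t)).natDegree_eq_card_roots, natDegree_ft W hn]

lemma card_toFinset_roots_ft {n : ℕ} (hn : 2 ≤ n) {t : K} (ht : t ∉ bad W n) :
    (ft W n t).roots.toFinset.card = n ^ 2 := by
  rw [Multiset.toFinset_card_of_nodup (nodup_roots_ft W hn ht), card_roots_ft W (by omega)]

/-- For a root `r` of `f_t` and a point `P ≠ 0` with abscissa `t`, some point `Q` with abscissa
`r` satisfies `n • Q = P`. -/
lemma exists_preimage (n : ℕ) {t r : K} (hr : (ft W n t).IsRoot r) {P : W.toAffine.Point}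
    (hP : P ≠ 0) (hPt : xc P = t) : ∃ Q : W.toAffine.Point, xc Q = r ∧ n • Q = P := by
  obtain ⟨Q, hQ, hx⟩ := exists_point_xc (W := W) r
  have h0 : (ladW W n).X₁.eval r = t * (ladW W n).Z₁.eval r := by
    simp only [ft, IsRoot.def, eval_sub, eval_mul, eval_C] at hr
    linear_combination hr
  have hZ : (ladW W n).Z₁.eval r ≠ 0 := by
    intro hZ
    rcases not_both_zero W n r with h | h
    · exact h (by rw [h0, hZ, mul_zero])
    · exact h hZ
  have hnQ : n • Q ≠ 0 := by
    intro h
    apply hZ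
    rw [← hx]
    exact (eval_ladZ_eq_zero_iff hQ n).2 h
  have hxn : xc (n • Q) = t := by
    have := xc_nsmul_mul_eval hQ n hnQ
    rw [hx] at this
    apply mul_right_cancel₀ hZ
    rw [this, h0]
  rcases eq_or_eq_neg_of_xc_eq hnQ hP (hxn.trans hPt.symm) with h | h
  · exact ⟨Q, hx, h⟩
  · exact ⟨-Q, by rw [xc_neg, hx], by rw [smul_neg, h, neg_neg]⟩

/-- **Lower bound**: at least `(2m+1)²` points are killed by `2m+1` (`m ≥ 1`). -/
theorem le_ncard_torsion {m : ℕ} (hm : 1 ≤ m) :
    (2 * m + 1) ^ 2 ≤ {T : W.toAffine.Point | (2 * m + 1) • T = 0}.ncard := by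
  classical
  have hn2 : 2 ≤ 2 * m + 1 := by omega
  have hp : ((2 * m + 1 : ℕ) : K) ≠ 0 := Nat.cast_ne_zero.2 (by omega)
  have hfin := finite_torsion (W := W) hp
  obtain ⟨t, ht⟩ := Infinite.exists_notMem_finset (bad W (2 * m + 1))
  obtain ⟨P, hP, hPt⟩ := exists_point_xc (W := W) t
  have hcard := card_toFinset_roots_ft W hn2 ht
  have key : ∀ r : K, ∃ Q : W.toAffine.Point,
      r ∈ (ft W (2 * m + 1) t).roots.toFinset → xc Q = r ∧ (2 * m + 1) • Q = P := by
    intro r
    by_cases hr : r ∈ (ft W (2 * m + 1) t).roots.toFinset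
    · rw [Multiset.mem_toFinset, mem_roots (ft_ne_zero W (by omega) t)] at hr
      obtain ⟨Q, h1, h2⟩ := exists_preimage W (2 * m + 1) hr hP hPt
      exact ⟨Q, fun _ => ⟨h1, h2⟩⟩
    · exact ⟨0, fun h => absurd h hr⟩
  choose F hF using key
  obtain ⟨r₀, hr₀⟩ : (ft W (2 * m + 1) t).roots.toFinset.Nonempty := by
    rw [← Finset.card_pos, hcard]
    positivity
  rw [Set.ncard_eq_toFinset_card _ hfin, ← hcard]
  refine Finset.card_le_card_of_injOn (fun r => F r - F r₀) ?_ ?_
  · intro r hr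
    rw [Finset.mem_coe, Set.Finite.mem_toFinset, Set.mem_ofPred_eq, smul_sub, (hF r hr).2,
      (hF r₀ hr₀).2, sub_self]
  · intro r hr r' hr' h
    have h1 : F r = F r' := by
      have := sub_left_injective h
      exact this
    rw [← (hF r hr).1, ← (hF r' hr').1, h1]

/-- **Exact count**: the `(2m+1)`-torsion has exactly `(2m+1)²` elements (`m ≥ 1`). -/
theorem ncard_torsion_eq {m : ℕ} (hm : 1 ≤ m) :
    {T : W.toAffine.Point | (2 * m + 1) • T = 0}.ncard = (2 * m + 1) ^ 2 :=
  le_antisymm (ncard_torsion_le (Nat.cast_ne_zero.2 (by omega))) (le_ncard_torsion W hm)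

/-- in the shape of the frozen statements. -/
theorem card_torsionBy_eq {p : ℕ} (hp : p.Prime) (hp2 : p ≠ 2) :
    Nat.card (Submodule.torsionBy ℤ W.toAffine.Point (p : ℤ)) = p ^ 2 := by
  obtain ⟨m, hm⟩ : ∃ m, p = 2 * m + 1 := by
    rcases hp.eq_two_or_odd' with h | h
    · exact absurd h hp2
    · exact h
  have hm1 : 1 ≤ m := by
    have := hp.two_le
    omega
  have h1 := ncard_torsion_eq W hm1
  rw [← hm] at h1
  have hset : ((Submodule.torsionBy ℤ W.toAffine.Point (p : ℤ) : Submodule ℤ W.toAffine.Point) :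
      Set W.toAffine.Point) = {T : W.toAffine.Point | p • T = 0} := by
    ext T
    rw [SetLike.mem_coe, Submodule.mem_torsionBy_iff, natCast_zsmul]
    exact Iff.rfl
  rw [← hset, ← Nat.card_coe_set_eq] at h1
  exact h1

end Fermat.Agent.S41.R3.CardTorsion
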