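import Fermat.Agent.S13.ClosePointsGen
import Fermat.Agent.S13.NoTorsionE1Gen
import Fermat.Agent.S13.DP.LadderRoots

/-!
# S41 / (R3b) curve input, local part (volunteer file, helper44)

`K` an algebraically closed field with a valuation subring `A`, `W` an elliptic curve over `K` with
integral coefficients, `p = 2m + 1` an odd prime which is a unit of `A`.

* `eq_of_close`: two `p`-torsion points which are congruent modulo the maximal ideal of `A`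
  (coordinatewise), the first one with nonsingular reduction, are equal
  (`S13/ClosePointsGen` + `S13/NoTorsionE1Gen`; no reduction homomorphism is needed).
* `exists_torsion_close`: if the torsion polynomial `torD W m` is a non-unit at `x₀`, some nonzero
  `p`-torsion point has abscissa congruent to `x₀`.
* `exists_torsion_congr`: the same with the ordinate, for `(x₀, y₀)` satisfying the Weierstrass
  equation modulo the maximal ideal.
* `exists_fixed_torsion`: for a ring endomorphism `σ` of `K` fixing the coefficients of `W`, with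
  `σ a ≡ a ^ ℓ` on `A`, and `(x₀, y₀)` with `x₀ ^ ℓ ≡ x₀`, `y₀ ^ ℓ ≡ y₀`: there is a nonzero
  `p`-torsion point `T` all of whose `σ`-images are equal to `T`.
-/

set_option autoImplicit false

namespace Fermat.Agent.S41.R3.CurveLocal

open WeierstrassCurve WeierstrassCurve.Affine Polynomial
open Fermat.Agent.S13.XOnlyGen Fermat.Agent.S13.DP.Ladder Fermat.Agent.S13.DP.LadderDeg
  Fermat.Agent.S13.DP.LadderRoots

variable {K : Type*} [Field K] [DecidableEq K] (A : ValuationSubring K) {W : WeierstrassCurve K}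

omit [DecidableEq K] in
lemma val_lt_one_iff {x : K} : A.valuation x < 1 ↔ x ∈ A.nonunits :=
  (A.mem_nonunits_iff).symm

omit [DecidableEq K] in
lemma val_le_one_iff {x : K} : A.valuation x ≤ 1 ↔ x ∈ A := A.valuation_le_one_iff x

omit [DecidableEq K] in
lemma val_eq_one_of {x : K} (hx : x ∈ A) (hx' : x ∉ A.nonunits) : A.valuation x = 1 := by
  refine le_antisymm ((val_le_one_iff A).2 hx) ?_
  by_contra h
  exact hx' ((val_lt_one_iff A).1 (not_le.1 h))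

/-- Two congruent `p`-torsion points, the first with nonsingular reduction, are equal. -/
theorem eq_of_close (ha₁ : W.a₁ ∈ A) (ha₂ : W.a₂ ∈ A) (ha₃ : W.a₃ ∈ A) (ha₄ : W.a₄ ∈ A)
    (ha₆ : W.a₆ ∈ A) {p : ℕ} (hp : p.Prime) (hp2 : p ≠ 2) (hpA : (p : K) ∉ A.nonunits)
    {T T' : W.toAffine.Point} (hT : T ≠ 0) (hT' : T' ≠ 0) (hpT : p • T = 0) (hpT' : p • T' = 0)
    (hx : xc T ∈ A) (hy : yc T ∈ A)
    (hx' : xc T' - xc T ∈ A.nonunits) (hy' : yc T' - yc T ∈ A.nonunits)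
    (hns : A.valuation (2 * yc T + W.a₁ * xc T + W.a₃) = 1 ∨
      A.valuation (3 * xc T ^ 2 + 2 * W.a₂ * xc T + W.a₄ - W.a₁ * yc T) = 1) :
    T' = T := by
  obtain ⟨hb₂, hb₄, hb₆, hb₈⟩ :=
    Fermat.Agent.S13.NoTorsionE1Gen.b_mem_of_a_mem A ha₁ ha₂ ha₃ ha₄ ha₆
  have hmain := Fermat.Agent.S13.ClosePointsGen.main A.valuation
    ((val_le_one_iff A).2 ha₁) ((val_le_one_iff A).2 ha₂) hT hT'
    ((val_le_one_iff A).2 hx) ((val_le_one_iff A).2 hy)
    ((val_lt_one_iff A).2 hx') ((val_lt_one_iff A).2 hy') hns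
  have hpd : p • (T' - T) = 0 := by rw [smul_sub, hpT, hpT', sub_zero]
  have h0 : T' - T = 0 := by
    refine Fermat.Agent.S13.NoTorsionE1Gen.eq_zero_of_xc_not_mem A hb₂ hb₄ hb₆ hb₈ hp hp2 hpA hpd ?_
    rcases hmain with h | h
    · exact Or.inl h
    · refine Or.inr fun hmem => ?_
      exact absurd ((val_le_one_iff A).2 hmem) (not_le.2 h)
  exact sub_eq_zero.1 h0

/-- If `torD W m` is a non-unit at `x₀`, some nonzero `(2m+1)`-torsion point has abscissa congruent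
to `x₀` modulo the maximal ideal. -/
theorem exists_torsion_close [IsAlgClosed K] [W.IsElliptic] {m : ℕ}
    (hpA : A.valuation ((2 * m + 1 : ℕ) : K) = 1) {x₀ : K}
    (hx₀ : (torD W m).eval x₀ ∈ A.nonunits) :
    ∃ T : W.toAffine.Point, T ≠ 0 ∧ (2 * m + 1) • T = 0 ∧ x₀ - xc T ∈ A.nonunits := by
  have hp0 : ((2 * m + 1 : ℕ) : K) ≠ 0 := by
    intro h
    rw [h, map_zero] at hpA
    exact zero_ne_one hpA
  have hev := (IsAlgClosed.splits (torD W m)).eval_eq_prod_roots x₀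
  rw [leadingCoeff_torD hp0] at hev
  have hv : A.valuation ((torD W m).eval x₀) < 1 := (val_lt_one_iff A).2 hx₀
  rw [hev, map_mul, hpA, one_mul, map_multiset_prod, Multiset.map_map] at hv
  obtain ⟨r, hr, hrv⟩ : ∃ r ∈ (torD W m).roots, A.valuation (x₀ - r) < 1 := by
    by_contra hcon
    push Not at hcon
    have : (1 : A.ValueGroup) ≤
        (Multiset.map (⇑A.valuation ∘ fun x => x₀ - x) (torD W m).roots).prod := by
      apply Multiset.one_le_prod_of_one_le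
      intro y hy
      obtain ⟨r, hr, rfl⟩ := Multiset.mem_map.1 hy
      exact hcon r hr
    exact absurd hv (not_lt.2 this)
  have hroot : (torD W m).IsRoot r := (mem_roots (torD_ne_zero hp0)).1 hr
  obtain ⟨T, hT, hpT, hxT⟩ := (isRoot_torD_iff_exists m r).1 hroot
  exact ⟨T, hT, hpT, by rw [hxT]; exact (val_lt_one_iff A).1 hrv⟩

omit [DecidableEq K] in
/-- On an integral Weierstrass model, a point with integral abscissa has integral ordinate. -/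
theorem yc_mem_of_xc_mem (ha₁ : W.a₁ ∈ A) (ha₂ : W.a₂ ∈ A) (ha₃ : W.a₃ ∈ A) (ha₄ : W.a₄ ∈ A)
    (ha₆ : W.a₆ ∈ A) {T : W.toAffine.Point} (hT : T ≠ 0) (hx : xc T ∈ A) : yc T ∈ A := by
  by_contra hy
  have hvy : 1 < A.valuation (yc T) := not_le.1 fun h => hy ((val_le_one_iff A).1 h)
  have hc : W.a₁ * xc T + W.a₃ ∈ A := A.add_mem _ _ (A.mul_mem _ _ ha₁ hx) ha₃
  have hR : xc T ^ 3 + W.a₂ * xc T ^ 2 + W.a₄ * xc T + W.a₆ ∈ A :=
    A.add_mem _ _ (A.add_mem _ _ (A.add_mem _ _ (pow_mem hx 3) (A.mul_mem _ _ ha₂ (pow_mem hx 2)))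
      (A.mul_mem _ _ ha₄ hx)) ha₆
  have heq := equation_xc_yc hT
  have hprod : yc T * (yc T + (W.a₁ * xc T + W.a₃)) =
      xc T ^ 3 + W.a₂ * xc T ^ 2 + W.a₄ * xc T + W.a₆ := by linear_combination heq
  have hv2 : A.valuation (yc T + (W.a₁ * xc T + W.a₃)) = A.valuation (yc T) :=
    Valuation.map_add_eq_of_lt_left _ (lt_of_le_of_lt ((val_le_one_iff A).2 hc) hvy)
  have hvR := (val_le_one_iff A).2 hR
  rw [← hprod, map_mul, hv2] at hvR
  have : (1 : A.ValueGroup) < A.valuation (yc T) * A.valuation (yc T) := by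
    calc (1 : A.ValueGroup) = 1 * 1 := (one_mul 1).symm
      _ < A.valuation (yc T) * A.valuation (yc T) := mul_lt_mul'' hvy hvy zero_le_one zero_le_one
  exact absurd hvR (not_le.2 this)

omit [DecidableEq K] in
lemma nonunits_of_mul {a b : K} (ha : a ∈ A) (hb : b ∈ A) (hab : a * b ∈ A.nonunits) :
    a ∈ A.nonunits ∨ b ∈ A.nonunits := by
  by_contra hcon
  push Not at hcon
  have h1 := val_eq_one_of A ha hcon.1
  have h2 := val_eq_one_of A hb hcon.2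
  have := (val_lt_one_iff A).2 hab
  rw [map_mul, h1, h2, one_mul] at this
  exact lt_irrefl _ this

omit [DecidableEq K] in
lemma nonunits_sub {a b : K} (ha : a ∈ A.nonunits) (hb : b ∈ A.nonunits) : a - b ∈ A.nonunits :=
  (val_lt_one_iff A).1 (Valuation.map_sub_lt _ ((val_lt_one_iff A).2 ha) ((val_lt_one_iff A).2 hb))

omit [DecidableEq K] in
lemma nonunits_add {a b : K} (ha : a ∈ A.nonunits) (hb : b ∈ A.nonunits) : a + b ∈ A.nonunits :=
  (val_lt_one_iff A).1 (Valuation.map_add_lt _ ((val_lt_one_iff A).2 ha) ((val_lt_one_iff A).2 hb))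

omit [DecidableEq K] in
lemma nonunits_neg {a : K} (ha : a ∈ A.nonunits) : -a ∈ A.nonunits := by
  rw [← val_lt_one_iff, Valuation.map_neg]
  exact (val_lt_one_iff A).2 ha

omit [DecidableEq K] in
lemma nonunits_mul_left {a t : K} (ha : a ∈ A) (ht : t ∈ A.nonunits) : a * t ∈ A.nonunits := by
  rw [← val_lt_one_iff, map_mul]
  calc A.valuation a * A.valuation t ≤ 1 * A.valuation t :=
        mul_le_mul' ((val_le_one_iff A).2 ha) le_rfl
    _ = A.valuation t := one_mul _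
    _ < 1 := (val_lt_one_iff A).2 ht

omit [DecidableEq K] in
lemma nonunits_mul_right {a t : K} (ht : t ∈ A.nonunits) (ha : a ∈ A) : t * a ∈ A.nonunits := by
  rw [mul_comm]; exact nonunits_mul_left A ha ht

/-- Lifting a point of the reduction: if `(x₀, y₀)` satisfies the Weierstrass equation modulo the
maximal ideal and `torD W m` is a non-unit at `x₀`, there is a nonzero `p`-torsion point
congruent to `(x₀, y₀)`. -/
theorem exists_torsion_congr [IsAlgClosed K] [W.IsElliptic]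
    (ha₁ : W.a₁ ∈ A) (ha₂ : W.a₂ ∈ A) (ha₃ : W.a₃ ∈ A) (ha₄ : W.a₄ ∈ A) (ha₆ : W.a₆ ∈ A)
    {p m : ℕ} (hp : p.Prime) (hpm : p = 2 * m + 1) (hpA : (p : K) ∉ A.nonunits)
    {x₀ y₀ : K} (hx₀ : x₀ ∈ A) (hy₀ : y₀ ∈ A)
    (heq₀ : y₀ ^ 2 + W.a₁ * x₀ * y₀ + W.a₃ * y₀ -
      (x₀ ^ 3 + W.a₂ * x₀ ^ 2 + W.a₄ * x₀ + W.a₆) ∈ A.nonunits)
    (hD : (torD W m).eval x₀ ∈ A.nonunits) :
    ∃ T : W.toAffine.Point, T ≠ 0 ∧ p • T = 0 ∧ xc T ∈ A ∧ yc T ∈ A ∧
      xc T - x₀ ∈ A.nonunits ∧ yc T - y₀ ∈ A.nonunits := by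
  have hp2 : p ≠ 2 := by omega
  obtain ⟨hb₂, hb₄, hb₆, hb₈⟩ :=
    Fermat.Agent.S13.NoTorsionE1Gen.b_mem_of_a_mem A ha₁ ha₂ ha₃ ha₄ ha₆
  have hpv : A.valuation ((2 * m + 1 : ℕ) : K) = 1 := by
    rw [← hpm]
    exact val_eq_one_of A (natCast_mem A p) hpA
  obtain ⟨T, hT, hpT, hxT⟩ := exists_torsion_close A hpv hD
  rw [← hpm] at hpT
  have hx : xc T ∈ A :=
    Fermat.Agent.S13.NoTorsionE1Gen.xc_mem_of_prime_nsmul_eq_zero A hb₂ hb₄ hb₆ hb₈ hp hp2 hpA hpT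
  have hy : yc T ∈ A := yc_mem_of_xc_mem A ha₁ ha₂ ha₃ ha₄ ha₆ hT hx
  have hxT' : xc T - x₀ ∈ A.nonunits := by
    have : xc T - x₀ = -(x₀ - xc T) := by ring
    rw [this]; exact nonunits_neg A hxT
  have key : (yc T - y₀) * (yc T + y₀ + W.a₁ * x₀ + W.a₃) =
      (x₀ - xc T) * (W.a₁ * yc T - (x₀ ^ 2 + x₀ * xc T + xc T ^ 2) - W.a₂ * (x₀ + xc T) - W.a₄) -
        (y₀ ^ 2 + W.a₁ * x₀ * y₀ + W.a₃ * y₀ -
          (x₀ ^ 3 + W.a₂ * x₀ ^ 2 + W.a₄ * x₀ + W.a₆)) := by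
    linear_combination equation_xc_yc hT
  have hstuff : W.a₁ * yc T - (x₀ ^ 2 + x₀ * xc T + xc T ^ 2) - W.a₂ * (x₀ + xc T) - W.a₄ ∈ A :=
    sub_mem (sub_mem (sub_mem (A.mul_mem _ _ ha₁ hy)
      (A.add_mem _ _ (A.add_mem _ _ (pow_mem hx₀ 2) (A.mul_mem _ _ hx₀ hx)) (pow_mem hx 2)))
      (A.mul_mem _ _ ha₂ (A.add_mem _ _ hx₀ hx))) ha₄
  have hprod : (yc T - y₀) * (yc T + y₀ + W.a₁ * x₀ + W.a₃) ∈ A.nonunits := by
    rw [key]
    exact nonunits_sub A (nonunits_mul_right A hxT hstuff) heq₀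
  have hf1 : yc T - y₀ ∈ A := sub_mem hy hy₀
  have hf2 : yc T + y₀ + W.a₁ * x₀ + W.a₃ ∈ A :=
    A.add_mem _ _ (A.add_mem _ _ (A.add_mem _ _ hy hy₀) (A.mul_mem _ _ ha₁ hx₀)) ha₃
  rcases nonunits_of_mul A hf1 hf2 hprod with h | h
  · exact ⟨T, hT, hpT, hx, hy, hxT', h⟩
  · have hnT : -T ≠ 0 := neg_ne_zero.2 hT
    refine ⟨-T, hnT, by rw [smul_neg, hpT, neg_zero], by rw [xc_neg]; exact hx, ?_,
      by rw [xc_neg]; exact hxT', ?_⟩
    · rw [yc_neg hT]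
      exact sub_mem (sub_mem (A.neg_mem _ hy) (A.mul_mem _ _ ha₁ hx)) ha₃
    · rw [yc_neg hT]
      have : -yc T - W.a₁ * xc T - W.a₃ - y₀ =
          -(yc T + y₀ + W.a₁ * x₀ + W.a₃) + W.a₁ * (x₀ - xc T) := by ring
      rw [this]
      exact nonunits_add A (nonunits_neg A h) (nonunits_mul_left A ha₁ hxT)

omit [DecidableEq K] in
lemma pow_sub_pow_mem_nonunits {a b : K} (ha : a ∈ A) (hb : b ∈ A) (hab : a - b ∈ A.nonunits)
    (n : ℕ) : a ^ n - b ^ n ∈ A.nonunits := by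
  rw [← geom_sum₂_mul]
  refine nonunits_mul_left A ?_ hab
  exact sum_mem fun i _ => A.mul_mem _ _ (pow_mem ha _) (pow_mem hb _)

omit [DecidableEq K] in
lemma val_add_eq_one {a t : K} (ha : a ∈ A) (ha' : a ∉ A.nonunits) (ht : t ∈ A.nonunits) :
    A.valuation (a + t) = 1 := by
  have h1 := val_eq_one_of A ha ha'
  rw [Valuation.map_add_eq_of_lt_left _ (by rw [h1]; exact (val_lt_one_iff A).2 ht), h1]

/-- **Local curve input.**  `σ` a ring endomorphism of `K` with `σ a ≡ a ^ ℓ` on `A`, `(x₀, y₀)` a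
nonsingular solution of the Weierstrass equation modulo the maximal ideal with `x₀ ^ ℓ ≡ x₀`,
`y₀ ^ ℓ ≡ y₀`, at which the torsion polynomial is a non-unit: then some nonzero `p`-torsion point
`T` is fixed by `σ` (every nonzero `p`-torsion point with coordinates `σ (xc T)`, `σ (yc T)` is
equal to `T`). -/
theorem exists_fixed_torsion [IsAlgClosed K] [W.IsElliptic]
    (ha₁ : W.a₁ ∈ A) (ha₂ : W.a₂ ∈ A) (ha₃ : W.a₃ ∈ A) (ha₄ : W.a₄ ∈ A) (ha₆ : W.a₆ ∈ A)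
    {p m ℓ : ℕ} (hp : p.Prime) (hpm : p = 2 * m + 1) (hpA : (p : K) ∉ A.nonunits)
    (σ : K →+* K) (hσA : ∀ a ∈ A, σ a - a ^ ℓ ∈ A.nonunits)
    {x₀ y₀ : K} (hx₀ : x₀ ∈ A) (hy₀ : y₀ ∈ A)
    (hx₀ℓ : x₀ ^ ℓ - x₀ ∈ A.nonunits) (hy₀ℓ : y₀ ^ ℓ - y₀ ∈ A.nonunits)
    (heq₀ : y₀ ^ 2 + W.a₁ * x₀ * y₀ + W.a₃ * y₀ -
      (x₀ ^ 3 + W.a₂ * x₀ ^ 2 + W.a₄ * x₀ + W.a₆) ∈ A.nonunits)
    (hns₀ : 2 * y₀ + W.a₁ * x₀ + W.a₃ ∉ A.nonunits ∨
      3 * x₀ ^ 2 + 2 * W.a₂ * x₀ + W.a₄ - W.a₁ * y₀ ∉ A.nonunits)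
    (hD : (torD W m).eval x₀ ∈ A.nonunits) :
    ∃ T : W.toAffine.Point, T ≠ 0 ∧ p • T = 0 ∧
      ∀ T' : W.toAffine.Point, T' ≠ 0 → p • T' = 0 → xc T' = σ (xc T) → yc T' = σ (yc T) →
        T' = T := by
  have hp2 : p ≠ 2 := by omega
  obtain ⟨T, hT, hpT, hx, hy, hxc, hyc⟩ :=
    exists_torsion_congr A ha₁ ha₂ ha₃ ha₄ ha₆ hp hpm hpA hx₀ hy₀ heq₀ hD
  refine ⟨T, hT, hpT, fun T' hT' hpT' hx' hy' => ?_⟩
  have h2 : (2 : K) ∈ A := by exact_mod_cast natCast_mem A 2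
  have h3 : (3 : K) ∈ A := by exact_mod_cast natCast_mem A 3
  -- congruence of coordinates
  have hcx : xc T' - xc T ∈ A.nonunits := by
    have : xc T' - xc T = (σ (xc T) - xc T ^ ℓ) + (xc T ^ ℓ - x₀ ^ ℓ) + (x₀ ^ ℓ - x₀) -
        (xc T - x₀) := by rw [hx']; ring
    rw [this]
    exact nonunits_sub A (nonunits_add A (nonunits_add A (hσA _ hx)
      (pow_sub_pow_mem_nonunits A hx hx₀ hxc ℓ)) hx₀ℓ) hxc
  have hcy : yc T' - yc T ∈ A.nonunits := by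
    have : yc T' - yc T = (σ (yc T) - yc T ^ ℓ) + (yc T ^ ℓ - y₀ ^ ℓ) + (y₀ ^ ℓ - y₀) -
        (yc T - y₀) := by rw [hy']; ring
    rw [this]
    exact nonunits_sub A (nonunits_add A (nonunits_add A (hσA _ hy)
      (pow_sub_pow_mem_nonunits A hy hy₀ hyc ℓ)) hy₀ℓ) hyc
  -- nonsingular reduction at `T`
  have hns : A.valuation (2 * yc T + W.a₁ * xc T + W.a₃) = 1 ∨
      A.valuation (3 * xc T ^ 2 + 2 * W.a₂ * xc T + W.a₄ - W.a₁ * yc T) = 1 := by
    rcases hns₀ with h | h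
    · left
      have e : 2 * yc T + W.a₁ * xc T + W.a₃ =
          (2 * y₀ + W.a₁ * x₀ + W.a₃) + (2 * (yc T - y₀) + W.a₁ * (xc T - x₀)) := by ring
      rw [e]
      refine val_add_eq_one A ?_ h ?_
      · exact A.add_mem _ _ (A.add_mem _ _ (A.mul_mem _ _ h2 hy₀) (A.mul_mem _ _ ha₁ hx₀)) ha₃
      · exact nonunits_add A (nonunits_mul_left A h2 hyc) (nonunits_mul_left A ha₁ hxc)
    · right
      have e : 3 * xc T ^ 2 + 2 * W.a₂ * xc T + W.a₄ - W.a₁ * yc T =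
          (3 * x₀ ^ 2 + 2 * W.a₂ * x₀ + W.a₄ - W.a₁ * y₀) +
            ((3 * (xc T + x₀) + 2 * W.a₂) * (xc T - x₀) - W.a₁ * (yc T - y₀)) := by ring
      rw [e]
      refine val_add_eq_one A ?_ h ?_
      · exact sub_mem (A.add_mem _ _ (A.add_mem _ _ (A.mul_mem _ _ h3 (pow_mem hx₀ 2))
          (A.mul_mem _ _ (A.mul_mem _ _ h2 ha₂) hx₀)) ha₄) (A.mul_mem _ _ ha₁ hy₀)
      · refine nonunits_sub A (nonunits_mul_left A ?_ hxc) (nonunits_mul_left A ha₁ hyc)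
        exact A.add_mem _ _ (A.mul_mem _ _ h3 (A.add_mem _ _ hx hx₀)) (A.mul_mem _ _ h2 ha₂)
  exact eq_of_close A ha₁ ha₂ ha₃ ha₄ ha₆ hp hp2 hpA hT hT' hpT hpT' hx hy hcx hcy hns

end Fermat.Agent.S41.R3.CurveLocal
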