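import Fermat.Prelude.Def_FLTPrelim_ModularRep
import Fermat.Prelude.Def_EllipticCurve_FrobeniusTrace
import Fermat.Agent.S05.Inertia
import Fermat.Agent.S41.R3.CurveLocal

/-!
# S41 / (R3b) curve input (volunteer file, helper44)

`W` an integral Weierstrass model, `ℓ` a prime, `p ≠ ℓ` an odd prime dividing
`#W̃(𝔽_ℓ) = ℓ + 1 - a_ℓ(W)`, `A` a valuation subring of `Qbar` over `ℓ` and `σ` a Frobenius element
at `A`: then `σ` fixes a nonzero point of `E[p](Qbar)`, `E = W_ℚ`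
(`exists_fixed_point`).  No reduction homomorphism is used: Cauchy's theorem in the finite group
`W̃(𝔽_ℓ)`, the torsion polynomial `torD` of `S13/DP` (integral coefficients, compatible with ring
homomorphisms) and the local statement `CurveLocal.exists_fixed_torsion`.
-/

set_option autoImplicit false

open WeierstrassCurve WeierstrassCurve.Affine WeierstrassCurve.Affine.Point

namespace Fermat.Agent.S41.R3.CurveInput

open Polynomial
open Fermat.Agent.S13.XOnlyGen Fermat.Agent.S13.DP.Ladder Fermat.Agent.S13.DP.LadderDeg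
  Fermat.Agent.S13.DP.LadderRoots

local notation "Qbar" => AlgebraicClosure ℚ
local notation "GQ" => (AlgebraicClosure ℚ ≃ₐ[ℚ] AlgebraicClosure ℚ)

/-! ### The ladder polynomial commutes with ring homomorphisms -/

section LadMap

variable {R S : Type*} [CommRing R] [CommRing S] (φ : R →+* S)

lemma ladP_map (b₂ b₄ b₆ b₈ : R) (n : ℕ) :
    (ladP b₂ b₄ b₆ b₈ n).map (mapRingHom φ) = ladP (φ b₂) (φ b₄) (φ b₆) (φ b₈) n := by
  rw [ladP, ladP, map_lad]
  congr 1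
  simp [Params.map, polyPar]

lemma ladD_map (b₂ b₄ b₆ b₈ : R) (m : ℕ) :
    (ladD b₂ b₄ b₆ b₈ m).map φ = ladD (φ b₂) (φ b₄) (φ b₆) (φ b₈) m := by
  have h := ladP_map φ b₂ b₄ b₆ b₈ m
  simp only [ladD, Polynomial.map_sub, Polynomial.map_mul]
  rw [← h]
  rfl

end LadMap

/-- the torsion polynomial of a mapped curve -/
lemma torD_map {R : Type*} [CommRing R] {F : Type*} [Field F] (W : WeierstrassCurve R)
    (φ : R →+* F) (m : ℕ) :
    torD (W.map φ) m = (ladD W.b₂ W.b₄ W.b₆ W.b₈ m).map φ := by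
  rw [ladD_map, torD]
  simp only [WeierstrassCurve.map_b₂, WeierstrassCurve.map_b₄, WeierstrassCurve.map_b₆,
    WeierstrassCurve.map_b₈]

/-! ### Frobenius elements act as `ℓ`-th power modulo the maximal ideal -/

section Frob

variable {K L : Type*} [Field K] [Field L] [Algebra K L] {A : ValuationSubring L}

theorem frob_sub_pow_mem {σ : L ≃ₐ[K] L} {q : ℕ} (hσ : A.IsFrobeniusAt σ q) {w : L}
    (hw : w ∈ A) : σ w - w ^ q ∈ A.nonunits := by
  obtain ⟨hd, h⟩ := hσ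
  have h1 := h (IsLocalRing.residue A ⟨w, hw⟩)
  rw [← IsLocalRing.ResidueField.residue_smul, ← map_pow] at h1
  have h2 : IsLocalRing.residue A ((⟨σ, hd⟩ : A.decompositionSubgroup K) • (⟨w, hw⟩ : A) -
      (⟨w, hw⟩ : A) ^ q) = 0 := by
    rw [map_sub, h1, sub_self]
  rw [IsLocalRing.residue_eq_zero_iff] at h2
  have h3 : (((⟨σ, hd⟩ : A.decompositionSubgroup K) • (⟨w, hw⟩ : A) - (⟨w, hw⟩ : A) ^ q : A) : L)
      ∈ A.nonunits := by
    rw [ValuationSubring.mem_nonunits_iff_exists_mem_maximalIdeal]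
    exact ⟨_, h2⟩
  exact h3

end Frob

/-! ### The main statement -/

section Main

variable (W : WeierstrassCurve ℤ)

lemma wb_eq : ((W.map (Int.castRingHom ℚ) : Affine ℚ)⁄Qbar) = W.map (Int.castRingHom Qbar) := by
  change (W.map (Int.castRingHom ℚ)).map (algebraMap ℚ Qbar) = _
  rw [WeierstrassCurve.map_map]
  congr 1


lemma wb_a₁ : ((W.map (Int.castRingHom ℚ) : Affine ℚ)⁄Qbar).a₁ = (W.a₁ : Qbar) := by
  rw [wb_eq, WeierstrassCurve.map_a₁, eq_intCast]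
lemma wb_a₂ : ((W.map (Int.castRingHom ℚ) : Affine ℚ)⁄Qbar).a₂ = (W.a₂ : Qbar) := by
  rw [wb_eq, WeierstrassCurve.map_a₂, eq_intCast]
lemma wb_a₃ : ((W.map (Int.castRingHom ℚ) : Affine ℚ)⁄Qbar).a₃ = (W.a₃ : Qbar) := by
  rw [wb_eq, WeierstrassCurve.map_a₃, eq_intCast]
lemma wb_a₄ : ((W.map (Int.castRingHom ℚ) : Affine ℚ)⁄Qbar).a₄ = (W.a₄ : Qbar) := by
  rw [wb_eq, WeierstrassCurve.map_a₄, eq_intCast]
lemma wb_a₆ : ((W.map (Int.castRingHom ℚ) : Affine ℚ)⁄Qbar).a₆ = (W.a₆ : Qbar) := by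
  rw [wb_eq, WeierstrassCurve.map_a₆, eq_intCast]
lemma wb_Δ : ((W.map (Int.castRingHom ℚ) : Affine ℚ)⁄Qbar).Δ = (W.Δ : Qbar) := by
  rw [wb_eq, WeierstrassCurve.map_Δ, eq_intCast]

lemma wb_torD (m : ℕ) : torD ((W.map (Int.castRingHom ℚ) : Affine ℚ)⁄Qbar) m =
    (ladD W.b₂ W.b₄ W.b₆ W.b₈ m).map (Int.castRingHom Qbar) := by
  rw [wb_eq, torD_map]

lemma red_torD (ℓ m : ℕ) [Fact ℓ.Prime] : torD (W.reductionMod ℓ) m =
    (ladD W.b₂ W.b₄ W.b₆ W.b₈ m).map (Int.castRingHom (ZMod ℓ)) := by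
  rw [WeierstrassCurve.reductionMod, torD_map]

lemma card_eq {ℓ : ℕ} [Fact ℓ.Prime] :
    (ℓ : ℤ) + 1 - W.apOfModel ℓ = (Nat.card (W.reductionMod ℓ).toAffine.Point : ℤ) := by
  simp only [WeierstrassCurve.apOfModel, WeierstrassCurve.traceOfFrobenius, WeierstrassCurve.card,
    Nat.card_zmod]
  ring

/-- The Galois action commutes with the coordinates. -/
theorem xc_smul (σ : GQ) (T : ((W.map (Int.castRingHom ℚ) : Affine ℚ)⁄Qbar).Point) :
    xc (σ • T) = σ (xc T) := by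
  cases T with
  | zero =>
    have h0 : σ • (0 : ((W.map (Int.castRingHom ℚ) : Affine ℚ)⁄Qbar).Point) = 0 := rfl
    change xc (σ • (0 : ((W.map (Int.castRingHom ℚ) : Affine ℚ)⁄Qbar).Point)) =
      σ (xc (0 : ((W.map (Int.castRingHom ℚ) : Affine ℚ)⁄Qbar).Point))
    rw [h0, xc_zero, _root_.map_zero]
  | some x y h => rfl

theorem yc_smul (σ : GQ) (T : ((W.map (Int.castRingHom ℚ) : Affine ℚ)⁄Qbar).Point) :
    yc (σ • T) = σ (yc T) := by
  cases T with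
  | zero =>
    have h0 : σ • (0 : ((W.map (Int.castRingHom ℚ) : Affine ℚ)⁄Qbar).Point) = 0 := rfl
    change yc (σ • (0 : ((W.map (Int.castRingHom ℚ) : Affine ℚ)⁄Qbar).Point)) =
      σ (yc (0 : ((W.map (Int.castRingHom ℚ) : Affine ℚ)⁄Qbar).Point))
    rw [h0, yc_zero, _root_.map_zero]
  | some x y h => rfl

/-- Point-level form of the curve input. -/
theorem exists_fixed_point' {ℓ p : ℕ} (hℓ : ℓ.Prime) (hgood : W.IsGoodPrimeFor ℓ)
    (hp : p.Prime) (hp2 : p ≠ 2) (hpℓ : p ≠ ℓ)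
    (hdvd : (p : ℤ) ∣ (ℓ : ℤ) + 1 - W.apOfModel ℓ)
    (A : ValuationSubring Qbar) (hA : A.LiesOverPrime ℓ) (σ : GQ) (hσ : A.IsFrobeniusAt σ ℓ) :
    ∃ T : ((W.map (Int.castRingHom ℚ) : Affine ℚ)⁄Qbar).Point, T ≠ 0 ∧ p • T = 0 ∧ σ • T = T := by
  have : Fact ℓ.Prime := ⟨hℓ⟩
  have : Fact p.Prime := ⟨hp⟩
  -- Cauchy in the finite group of points over `𝔽_ℓ`
  have hcard : p ∣ Nat.card (W.reductionMod ℓ).toAffine.Point := by
    rw [card_eq] at hdvd
    exact Int.natCast_dvd_natCast.1 hdvd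
  obtain ⟨Qt, hQt⟩ := exists_prime_addOrderOf_dvd_card' p hcard
  have hQt0 : Qt ≠ 0 := by
    rintro rfl
    rw [addOrderOf_zero] at hQt
    exact hp.one_lt.ne hQt
  have hpQt : p • Qt = 0 := by rw [← hQt]; exact addOrderOf_nsmul_eq_zero Qt
  obtain ⟨m, hm⟩ : ∃ m, p = 2 * m + 1 := by
    rcases hp.eq_two_or_odd' with h | h
    · exact absurd h hp2
    · exact h
  -- coordinates of the point over `𝔽_ℓ` and integer lifts
  obtain ⟨xt, yt, hns, rfl⟩ : ∃ (xt yt : ZMod ℓ) (h : (W.reductionMod ℓ).toAffine.Nonsingular xt yt),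
      Qt = Point.some xt yt h := by
    cases Qt with
    | zero => exact absurd rfl hQt0
    | some x y h => exact ⟨x, y, h, rfl⟩
  obtain ⟨x₀, rfl⟩ := ZMod.intCast_surjective xt
  obtain ⟨y₀, rfl⟩ := ZMod.intCast_surjective yt
  have hroot : (torD (W.reductionMod ℓ) m).IsRoot ((x₀ : ℤ) : ZMod ℓ) := by
    have := (isRoot_torD_iff (W := W.reductionMod ℓ) hQt0 m).2 (by rw [← hm]; exact hpQt)
    simpa using this
  -- divisibility facts over `ℤ`
  have hD : (ℓ : ℤ) ∣ (ladD W.b₂ W.b₄ W.b₆ W.b₈ m).eval x₀ := by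
    rw [red_torD, IsRoot.def] at hroot
    have h1 : ((x₀ : ℤ) : ZMod ℓ) = Int.castRingHom (ZMod ℓ) x₀ := rfl
    rw [h1, eval_map_apply, eq_intCast] at hroot
    exact (ZMod.intCast_zmod_eq_zero_iff_dvd _ _).1 hroot
  rw [Affine.nonsingular_iff, Affine.equation_iff] at hns
  obtain ⟨heq, hsing⟩ := hns
  simp only [WeierstrassCurve.reductionMod, WeierstrassCurve.map_a₁, WeierstrassCurve.map_a₂,
    WeierstrassCurve.map_a₃, WeierstrassCurve.map_a₄, WeierstrassCurve.map_a₆, eq_intCast]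
    at heq hsing
  have hE : (ℓ : ℤ) ∣ y₀ ^ 2 + W.a₁ * x₀ * y₀ + W.a₃ * y₀ -
      (x₀ ^ 3 + W.a₂ * x₀ ^ 2 + W.a₄ * x₀ + W.a₆) := by
    rw [← ZMod.intCast_zmod_eq_zero_iff_dvd]
    push_cast
    rw [heq, sub_self]
  have hS : ¬ (ℓ : ℤ) ∣ 2 * y₀ + W.a₁ * x₀ + W.a₃ ∨
      ¬ (ℓ : ℤ) ∣ 3 * x₀ ^ 2 + 2 * W.a₂ * x₀ + W.a₄ - W.a₁ * y₀ := by
    rcases hsing with h | h
    · right
      rw [← ZMod.intCast_zmod_eq_zero_iff_dvd]
      push_cast
      intro h0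
      exact h (by linear_combination -h0)
    · left
      rw [← ZMod.intCast_zmod_eq_zero_iff_dvd]
      push_cast
      intro h0
      exact h (by linear_combination h0)
  have hFx : (ℓ : ℤ) ∣ x₀ ^ ℓ - x₀ := by
    rw [← ZMod.intCast_zmod_eq_zero_iff_dvd]
    push_cast
    rw [ZMod.pow_card, sub_self]
  have hFy : (ℓ : ℤ) ∣ y₀ ^ ℓ - y₀ := by
    rw [← ZMod.intCast_zmod_eq_zero_iff_dvd]
    push_cast
    rw [ZMod.pow_card, sub_self]
  -- the local statement over `Qbar`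
  have hΔ0 : W.Δ ≠ 0 := by
    rintro h
    exact hgood (by rw [h]; exact dvd_zero _)
  have : ((W.map (Int.castRingHom ℚ) : Affine ℚ)⁄Qbar).IsElliptic := by
    refine ⟨?_⟩
    rw [wb_Δ, isUnit_iff_ne_zero]
    exact Int.cast_ne_zero.2 hΔ0
  have hpA : (p : Qbar) ∉ A.nonunits := by
    rw [A.mem_nonunits_iff, S05.Inertia.valuation_natCast_prime_eq_one hℓ hp hpℓ.symm hA]
    exact lt_irrefl _
  have hnu : ∀ n : ℤ, (ℓ : ℤ) ∣ n → ((n : ℤ) : Qbar) ∈ A.nonunits := fun n hn =>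
    (A.mem_nonunits_iff).2 (S05.Inertia.valuation_intCast_lt_one_of_dvd hA hn)
  have hun : ∀ n : ℤ, ¬ (ℓ : ℤ) ∣ n → ((n : ℤ) : Qbar) ∉ A.nonunits := fun n hn => by
    rw [A.mem_nonunits_iff, S05.Inertia.valuation_intCast_eq_one_of_not_dvd hℓ hA hn]
    exact lt_irrefl _
  obtain ⟨T, hT, hpT, hfix⟩ := CurveLocal.exists_fixed_torsion
    (W := ((W.map (Int.castRingHom ℚ) : Affine ℚ)⁄Qbar)) A
    (by rw [wb_a₁]; exact intCast_mem A _) (by rw [wb_a₂]; exact intCast_mem A _)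
    (by rw [wb_a₃]; exact intCast_mem A _) (by rw [wb_a₄]; exact intCast_mem A _)
    (by rw [wb_a₆]; exact intCast_mem A _) hp hm hpA
    (σ : Qbar →+* Qbar) (ℓ := ℓ) (fun a ha => frob_sub_pow_mem hσ ha)
    (x₀ := (x₀ : Qbar)) (y₀ := (y₀ : Qbar)) (intCast_mem A _) (intCast_mem A _)
    (by have := hnu _ hFx; push_cast at this; exact this)
    (by have := hnu _ hFy; push_cast at this; exact this)
    (by rw [wb_a₁, wb_a₂, wb_a₃, wb_a₄, wb_a₆]; have := hnu _ hE; push_cast at this; exact this)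
    (by
      rw [wb_a₁, wb_a₂, wb_a₃, wb_a₄]
      rcases hS with h | h
      · left; have := hun _ h; push_cast at this; exact this
      · right; have := hun _ h; push_cast at this; exact this)
    (by
      rw [wb_torD]
      have h1 : ((x₀ : ℤ) : Qbar) = Int.castRingHom Qbar x₀ := rfl
      rw [h1, eval_map_apply, eq_intCast]
      exact hnu _ hD)
  refine ⟨T, hT, hpT, hfix (σ • T) ?_ ?_ (xc_smul W σ T) (yc_smul W σ T)⟩
  · rwa [Ne, smul_eq_zero_iff_eq]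
  · rw [algEquiv_smul_def, ← map_nsmul, hpT, _root_.map_zero]

/-- **(R3b) curve input.**  If `p ≠ ℓ` is an odd prime dividing `#W̃(𝔽_ℓ) = ℓ + 1 - a_ℓ(W)`, every
Frobenius element at a place of `Qbar` over `ℓ` fixes a nonzero point of `E[p](Qbar)`. -/
theorem exists_fixed_point {ℓ p : ℕ} (hℓ : ℓ.Prime) (hgood : W.IsGoodPrimeFor ℓ)
    (hp : p.Prime) (hp2 : p ≠ 2) (hpℓ : p ≠ ℓ)
    (hdvd : (p : ℤ) ∣ (ℓ : ℤ) + 1 - W.apOfModel ℓ)
    (A : ValuationSubring Qbar) (hA : A.LiesOverPrime ℓ) (σ : GQ) (hσ : A.IsFrobeniusAt σ ℓ) :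
    ∃ Q : Submodule.torsionBy ℤ ((W.map (Int.castRingHom ℚ) : Affine ℚ)⁄Qbar).Point p,
      Q ≠ 0 ∧ σ • Q = Q := by
  obtain ⟨T, hT, hpT, hσT⟩ := exists_fixed_point' W hℓ hgood hp hp2 hpℓ hdvd A hA σ hσ
  have hmem : T ∈ Submodule.torsionBy ℤ ((W.map (Int.castRingHom ℚ) : Affine ℚ)⁄Qbar).Point p := by
    rw [Submodule.mem_torsionBy_iff, natCast_zsmul]
    exact hpT
  refine ⟨⟨T, hmem⟩, fun h => hT (congrArg Subtype.val h), Subtype.ext hσT⟩

end Main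

end Fermat.Agent.S41.R3.CurveInput
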