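/-
S41 volunteer leaf (R3), group-theoretic core (study (3c), helper43 #2491 (2)); Mathlib only.

`V` a `2`-dimensional `ZMod p`-vector space, `G`, `H` subgroups of `GL(V)`, `H` normalised by `G`,
`G` irreducible, and every element of prime-power order of `H` has a nonzero fixed vector.
Then `H = ⊥`.

Proof. `K := H ∩ SL(V)`: an element of prime order `r` of `K` has a fixed vector and determinant
`1`, so by Cayley–Hamilton it is unipotent, hence `r = p`; so `K` is a `p`-group, it has a nonzero
fixed vector, its fixed space is `G`-stable, hence everything, hence `K = ⊥`.  So `det` is injective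
on `H`, `G` centralises `H`, and the fixed space of an element of prime order of `H` is a proper
nonzero `G`-stable subspace.
-/
import Mathlib

set_option autoImplicit false

namespace Fermat.Agent.S41.R3.GroupLemma

open Module Polynomial

/-- `(1 + n)^m = 1 + m • n` when `n * n = 0`. -/
theorem one_add_pow_of_mul_self_eq_zero {R : Type*} [Ring R] (n : R) (hn : n * n = 0) (m : ℕ) :
    (1 + n) ^ m = 1 + m • n := by
  induction m with
  | zero => simp
  | succ m ih =>
    rw [pow_succ, ih, add_mul, one_mul, smul_mul_assoc, mul_add, mul_one, hn, add_zero,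
      succ_nsmul]
    abel

variable {p : ℕ} [hp : Fact p.Prime]
variable {V : Type*} [AddCommGroup V] [Module (ZMod p) V] [Module.Finite (ZMod p) V]

/-- The characteristic polynomial of an endomorphism of a `2`-dimensional space. -/
theorem charpoly_eq_of_finrank_two (f : End (ZMod p) V) (h2 : finrank (ZMod p) V = 2) :
    f.charpoly = X ^ 2 + C (f.charpoly.coeff 1) * X + C (f.charpoly.coeff 0) := by
  have hm := LinearMap.charpoly_monic f
  have hd : f.charpoly.natDegree = 2 := by rw [LinearMap.charpoly_natDegree, h2]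
  have h2c : f.charpoly.coeff 2 = 1 := by
    have := hm.coeff_natDegree
    rwa [hd] at this
  conv_lhs => rw [f.charpoly.as_sum_range_C_mul_X_pow, hd]
  simp only [Finset.sum_range_succ, Finset.sum_range_zero, h2c, pow_zero, pow_one, mul_one,
    map_one, one_mul, zero_add]
  ring

/-- Determinant `1` and a nonzero fixed vector in dimension `2`: unipotent. -/
theorem sub_one_mul_self_eq_zero (f : End (ZMod p) V) (h2 : finrank (ZMod p) V = 2)
    (hdet : LinearMap.det f = 1) (v : V) (hv : v ≠ 0) (hfv : f v = v) :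
    (f - 1) * (f - 1) = 0 := by
  have hP := charpoly_eq_of_finrank_two f h2
  have hc : f.charpoly.coeff 0 = 1 := by
    have := LinearMap.det_eq_sign_charpoly_coeff f
    rw [h2, hdet] at this
    simpa using this.symm
  have hev : f.HasEigenvalue 1 := by
    refine Module.End.hasEigenvalue_of_hasEigenvector (x := v) ⟨?_, hv⟩
    rw [Module.End.mem_eigenspace_iff, one_smul, hfv]
  have hroot : f.charpoly.IsRoot 1 := (Module.End.hasEigenvalue_iff_isRoot_charpoly f 1).1 hev
  have hb : f.charpoly.coeff 1 = -2 := by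
    have h := hroot
    rw [Polynomial.IsRoot.def, hP, hc] at h
    simp only [eval_add, eval_pow, eval_X, eval_mul, eval_C, one_pow, mul_one] at h
    linear_combination h
  have hCH := LinearMap.aeval_self_charpoly f
  rw [hP, hc, hb] at hCH
  simp only [map_add, map_pow, aeval_X, map_mul, map_neg, map_one, map_ofNat] at hCH
  calc (f - 1) * (f - 1) = f ^ 2 + -2 * f + 1 := by noncomm_ring
    _ = 0 := hCH

variable (h2 : finrank (ZMod p) V = 2)

/-- The determinant as a group hom on `GL(V)`. -/
noncomputable def detHom : (End (ZMod p) V)ˣ →* (ZMod p)ˣ :=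
  Units.map (LinearMap.det : End (ZMod p) V →* ZMod p)

omit [Module.Finite (ZMod p) V] in
theorem detHom_eq_one_iff (x : (End (ZMod p) V)ˣ) :
    detHom x = 1 ↔ LinearMap.det (x : End (ZMod p) V) = 1 := by
  rw [Units.ext_iff]
  rfl

include h2 in
/-- An element of prime order `r` of `SL(V)` with a nonzero fixed vector has `r = p`. -/
theorem prime_order_eq_of_det_one (x : (End (ZMod p) V)ˣ) (hdet : detHom x = 1)
    {r : ℕ} (hr : r.Prime) (hord : orderOf x = r)
    (v : V) (hv : v ≠ 0) (hxv : (x : End (ZMod p) V) v = v) : r = p := by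
  set f : End (ZMod p) V := (x : End (ZMod p) V) with hf
  have hdet' : LinearMap.det f = 1 := (detHom_eq_one_iff x).1 hdet
  have hnn := sub_one_mul_self_eq_zero f h2 hdet' v hv hxv
  set n : End (ZMod p) V := f - 1 with hn
  have hfn : f = 1 + n := by rw [hn]; abel
  have hpow : f ^ r = 1 := by
    have : x ^ r = 1 := by rw [← hord]; exact pow_orderOf_eq_one x
    rw [hf, ← Units.val_pow_eq_pow_val, this, Units.val_one]
  rw [hfn, one_add_pow_of_mul_self_eq_zero n hnn r] at hpow
  have hrn : r • n = 0 := by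
    have := hpow
    rwa [add_eq_left] at this
  have hrn' : ((r : ZMod p)) • n = 0 := by
    rw [Nat.cast_smul_eq_nsmul]; exact hrn
  rcases smul_eq_zero.1 hrn' with h0 | h0
  · have hdvd : p ∣ r := (ZMod.natCast_eq_zero_iff r p).1 h0
    exact ((Nat.prime_dvd_prime_iff_eq hp.out hr).1 hdvd).symm
  · exfalso
    have hf1 : f = 1 := by rw [hfn, h0, add_zero]
    have hx1 : x = 1 := Units.ext (by rw [← hf, hf1, Units.val_one])
    rw [hx1, orderOf_one] at hord
    exact hr.one_lt.ne' hord.symm

include h2 in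
/-- **Group lemma for (R3).** `G` irreducible on the plane `V`, `H` normalised by `G`, every element
of prime-power order of `H` fixes a nonzero vector: then `H` is trivial. -/
theorem eq_bot_of_primePow_fixed (G H : Subgroup (End (ZMod p) V)ˣ)
    (hnorm : ∀ g ∈ G, ∀ h ∈ H, g * h * g⁻¹ ∈ H)
    (hirr : ∀ N : Submodule (ZMod p) V,
      (∀ g ∈ G, ∀ x ∈ N, (g : End (ZMod p) V) x ∈ N) → N = ⊥ ∨ N = ⊤)
    (hfix : ∀ h ∈ H, IsPrimePow (orderOf h) →
      ∃ v : V, v ≠ 0 ∧ (h : End (ZMod p) V) v = v) :
    H = ⊥ := by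
  classical
  have : Finite V := Module.finite_of_finite (ZMod p)
  have : Finite (End (ZMod p) V) := DFunLike.finite _
  have : Finite (End (ZMod p) V)ˣ := inferInstance
  -- `K = H ∩ SL(V)`
  set K : Subgroup (End (ZMod p) V)ˣ := H ⊓ (detHom (p := p) (V := V)).ker with hK
  -- (1) `K` is a `p`-group
  have hKp : IsPGroup p K := by
    rw [IsPGroup.iff_orderOf]
    intro g
    have hpos : 0 < orderOf g := orderOf_pos g
    have hall : ∀ {r : ℕ}, r.Prime → r ∣ orderOf g → r = p := by
      intro r hr hdvd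
      have hord : orderOf (g ^ (orderOf g / r)) = r := orderOf_pow_orderOf_div hpos.ne' hdvd
      have hmem : ((g ^ (orderOf g / r) : K) : (End (ZMod p) V)ˣ) ∈ K := (g ^ (orderOf g / r)).2
      have hg'H : ((g ^ (orderOf g / r) : K) : (End (ZMod p) V)ˣ) ∈ H := hmem.1
      have hg'det : detHom ((g ^ (orderOf g / r) : K) : (End (ZMod p) V)ˣ) = 1 :=
        MonoidHom.mem_ker.1 hmem.2
      have hord' : orderOf ((g ^ (orderOf g / r) : K) : (End (ZMod p) V)ˣ) = r := by
        rw [Subgroup.orderOf_coe]; exact hord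
      obtain ⟨v, hv, hgv⟩ := hfix _ hg'H (by rw [hord']; exact hr.isPrimePow)
      exact prime_order_eq_of_det_one h2 _ hg'det hr hord' v hv hgv
    exact ⟨_, Nat.eq_prime_pow_of_unique_prime_dvd hpos.ne' hall⟩
  -- (2) `K` has a nonzero fixed vector
  have hcard : p ∣ Nat.card V := by
    rw [Module.natCard_eq_pow_finrank (K := ZMod p) (V := V), h2, Nat.card_zmod]
    exact dvd_pow_self p two_ne_zero
  have h0fix : (0 : V) ∈ MulAction.fixedPoints K V := by
    intro k
    rw [Subgroup.smul_def, Units.smul_def, Module.End.smul_def, map_zero]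
  obtain ⟨b, hbfix, hb0⟩ := hKp.exists_fixed_point_of_prime_dvd_card_of_fixed_point V hcard h0fix
  -- (3) the fixed space of `K` is `G`-stable, hence everything
  let F : Submodule (ZMod p) V :=
    { carrier := {v | ∀ x ∈ K, (x : End (ZMod p) V) v = v}
      add_mem' := fun {a b} ha hb x hx => by rw [map_add, ha x hx, hb x hx]
      zero_mem' := fun x _ => map_zero _
      smul_mem' := fun c v hv x hx => by rw [map_smul, hv x hx] }
  have hKnorm : ∀ g ∈ G, ∀ x ∈ K, g⁻¹ * x * g ∈ K := by
    intro g hg x hx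
    refine ⟨?_, MonoidHom.mem_ker.2 ?_⟩
    · have := hnorm g⁻¹ (G.inv_mem hg) x hx.1
      rwa [inv_inv] at this
    · rw [map_mul, map_mul, map_inv, MonoidHom.mem_ker.1 hx.2, mul_one, inv_mul_cancel]
  have hFstab : ∀ g ∈ G, ∀ v ∈ F, (g : End (ZMod p) V) v ∈ F := by
    intro g hg v hv x hx
    have h1 := hv (g⁻¹ * x * g) (hKnorm g hg x hx)
    -- `x (g v) = g ((g⁻¹ x g) v)`
    have h3 : (x : End (ZMod p) V) ((g : End (ZMod p) V) v)
        = (g : End (ZMod p) V) (((g⁻¹ * x * g : (End (ZMod p) V)ˣ) : End (ZMod p) V) v) := by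
      have : (x * g : (End (ZMod p) V)ˣ) = g * (g⁻¹ * x * g) := by group
      have h4 := congrArg (fun u : (End (ZMod p) V)ˣ => (u : End (ZMod p) V) v) this
      simpa [Units.val_mul, Module.End.mul_apply] using h4
    rw [h3, h1]
  have hbF : b ∈ F := by
    intro x hx
    have := hbfix ⟨x, hx⟩
    rwa [Subgroup.smul_def, Units.smul_def, Module.End.smul_def] at this
  have hFtop : F = ⊤ := by
    rcases hirr F hFstab with h | h
    · exfalso
      rw [h] at hbF
      exact hb0 ((Submodule.mem_bot _).1 hbF).symm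
    · exact h
  have hKbot : ∀ x ∈ K, x = 1 := by
    intro x hx
    refine Units.ext (LinearMap.ext fun v => ?_)
    have hvF : v ∈ F := by rw [hFtop]; trivial
    rw [hvF x hx, Units.val_one, Module.End.one_apply]
  -- (4) an element of prime order of `H` gives a proper nonzero `G`-stable subspace
  by_contra hne
  obtain ⟨⟨h, hhH⟩, hh1⟩ := Subgroup.ne_bot_iff_exists_ne_one.1 hne
  have hh1' : h ≠ 1 := fun e => hh1 (Subtype.ext e)
  have hpos : 0 < orderOf h := orderOf_pos h
  have hne1 : orderOf h ≠ 1 := fun e => hh1' (orderOf_eq_one_iff.1 e)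
  obtain ⟨r, hr, hdvd⟩ := Nat.exists_prime_and_dvd hne1
  have hord0 : orderOf (h ^ (orderOf h / r)) = r := orderOf_pow_orderOf_div hpos.ne' hdvd
  have hmem0 : h ^ (orderOf h / r) ∈ H := H.pow_mem hhH _
  obtain ⟨h', hh'H, hord⟩ : ∃ h' ∈ H, orderOf h' = r := ⟨_, hmem0, hord0⟩
  obtain ⟨v, hv, hfv⟩ := hfix h' hh'H (by rw [hord]; exact hr.isPrimePow)
  -- `G` centralises `h'`
  have hcomm : ∀ g ∈ G, g * h' = h' * g := by
    intro g hg
    have hc : g * h' * g⁻¹ * h'⁻¹ ∈ K := by
      refine ⟨H.mul_mem (hnorm g hg h' hh'H) (H.inv_mem hh'H), MonoidHom.mem_ker.2 ?_⟩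
      rw [map_mul, map_mul, map_mul, map_inv, map_inv, mul_comm (detHom g) (detHom h'),
        mul_inv_cancel_right, mul_inv_cancel]
    have h1 := hKbot _ hc
    calc g * h' = (g * h' * g⁻¹ * h'⁻¹) * (h' * g) := by group
      _ = h' * g := by rw [h1, one_mul]
  let F' : Submodule (ZMod p) V := LinearMap.ker ((h' : End (ZMod p) V) - 1)
  have hmemF' : ∀ w, w ∈ F' ↔ (h' : End (ZMod p) V) w = w := by
    intro w
    rw [LinearMap.mem_ker, LinearMap.sub_apply, Module.End.one_apply, sub_eq_zero]
  have hF'stab : ∀ g ∈ G, ∀ w ∈ F', (g : End (ZMod p) V) w ∈ F' := by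
    intro g hg w hw
    rw [hmemF'] at hw ⊢
    have h4 := congrArg (fun u : (End (ZMod p) V)ˣ => (u : End (ZMod p) V) w) (hcomm g hg)
    simp only [Units.val_mul, Module.End.mul_apply] at h4
    rw [← h4, hw]
  rcases hirr F' hF'stab with hbot | htop
  · have hvF : v ∈ F' := (hmemF' v).2 hfv
    rw [hbot] at hvF
    exact hv ((Submodule.mem_bot _).1 hvF)
  · have h'1 : h' = 1 := Units.ext (LinearMap.ext fun w => by
      have hwF : w ∈ F' := by rw [htop]; trivial
      rw [(hmemF' w).1 hwF, Units.val_one, Module.End.one_apply])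
    rw [h'1, orderOf_one] at hord
    exact hr.one_lt.ne' hord.symm

/-! ### Wrapper for an abstract group acting additively on `V` (e.g. `Gal(ℚ̄/ℚ)` on `E[p]`) -/

section Wrapper

variable (p) (V)
variable (Γ : Type*) [Group Γ] [DistribMulAction Γ V]

/-- The action as a monoid hom into `End (ZMod p) V` (additive maps are `ZMod p`-linear). -/
noncomputable def toEnd : Γ →* End (ZMod p) V where
  toFun σ := (DistribSMul.toAddMonoidHom V σ).toZModLinearMap p
  map_one' := by
    ext v
    simp
  map_mul' σ τ := by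
    ext v
    simp [mul_smul]

/-- The action as a group hom into `GL(V)`. -/
noncomputable def toGL : Γ →* (End (ZMod p) V)ˣ := (toEnd p V Γ).toHomUnits

variable {p} {V} {Γ}

omit [Module.Finite (ZMod p) V] in
@[simp] theorem toGL_apply (σ : Γ) (v : V) : ((toGL p V Γ σ : (End (ZMod p) V)ˣ) : End (ZMod p) V) v
    = σ • v := rfl

include h2 in
/-- **Group lemma for (R3), action form.** `Γ` acts irreducibly on the `ZMod p`-plane `V`, `N` is a
normal subgroup of `Γ`, and every `σ ∈ N` whose image in `GL(V)` has prime-power order fixes a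
nonzero vector: then `N` acts trivially on `V`. -/
theorem acts_trivially_of_primePow_fixed (N : Subgroup Γ) [N.Normal]
    (hirr : ∀ W : Submodule (ZMod p) V, (∀ σ : Γ, ∀ x ∈ W, σ • x ∈ W) → W = ⊥ ∨ W = ⊤)
    (hfix : ∀ σ ∈ N, IsPrimePow (orderOf (toGL p V Γ σ)) → ∃ v : V, v ≠ 0 ∧ σ • v = v) :
    ∀ σ ∈ N, ∀ v : V, σ • v = v := by
  have key := eq_bot_of_primePow_fixed h2 (toGL p V Γ).range (N.map (toGL p V Γ))
    (by
      rintro _ ⟨g, rfl⟩ _ ⟨h, hh, rfl⟩
      refine ⟨g * h * g⁻¹, Subgroup.Normal.conj_mem inferInstance h hh g, ?_⟩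
      simp only [map_mul, map_inv])
    (by
      intro W hW
      refine hirr W (fun σ x hx => ?_)
      have := hW (toGL p V Γ σ) ⟨σ, rfl⟩ x hx
      rwa [toGL_apply] at this)
    (by
      rintro _ ⟨σ, hσ, rfl⟩ hpp
      obtain ⟨v, hv, hσv⟩ := hfix σ hσ hpp
      exact ⟨v, hv, by rw [toGL_apply]; exact hσv⟩)
  intro σ hσ v
  have h1 : toGL p V Γ σ = 1 := by
    have : toGL p V Γ σ ∈ N.map (toGL p V Γ) := ⟨σ, hσ, rfl⟩
    rw [key] at this
    exact Subgroup.mem_bot.1 this
  have h3 : ((toGL p V Γ σ : (End (ZMod p) V)ˣ) : End (ZMod p) V) v = σ • v := toGL_apply σ v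
  rw [h1, Units.val_one, Module.End.one_apply] at h3
  exact h3.symm

end Wrapper

end Fermat.Agent.S41.R3.GroupLemma
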