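/-
S41 volunteer leaf (helper43), piece (P7) ASSEMBLY of helper59's architecture:
"`E[p]` irreducible ⟹ the maximal ideal is non-Eisenstein".

From the frozen irreducibility hypothesis `GaloisRepIsIrreducible ℚ E p`, an integral model `W` of
`E`, and a prime producer (`FrobProducer`, a hypothesis `Prop` here: Frobenius elements exist in
`H \ H'` for open subgroups `H' ◁ H` of `G_ℚ`), we produce, outside any finite set `S`, a good
prime `ℓ ≠ p` with `p ∤ ℓ + 1 - a_ℓ(W) = #W̃(𝔽_ℓ)`.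

Inputs: helper77's group lemma (`GroupLemma.acts_trivially_of_primePow_fixed`), helper44's curve
input (`CurveInput.exists_fixed_point`) and torsion count (`CardTorsion.card_torsionBy_eq`),
S05's change-of-variables homomorphism (`VarChange.pointHom`).
-/
import Fermat.Statements.S41
import Fermat.Agent.S05.VarChange
import Fermat.Agent.S41.R3.GroupLemma
import Fermat.Agent.S41.R3.CurveInput
import Fermat.Agent.S41.R3.CardTorsion

set_option autoImplicit false

open WeierstrassCurve WeierstrassCurve.Affine WeierstrassCurve.Affine.Point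

namespace Fermat.Agent.S41.R3.NonEisenstein

local notation "Qbar" => AlgebraicClosure ℚ
local notation "GQ" => (AlgebraicClosure ℚ ≃ₐ[ℚ] AlgebraicClosure ℚ)

/-- **Prime producer** (to be supplied by `FrobProducer.lean`): for open subgroups `H' ≤ H` of
`G_ℚ`, `H'` normalised by `H` and `H' ≠ H`, and a finite set `S` of primes, some Frobenius element
at a place over a prime `ℓ ∉ S` lies in `H \ H'`. -/
def FrobProducer : Prop :=
  ∀ (H H' : Subgroup GQ), IsOpen (H : Set GQ) → IsOpen (H' : Set GQ) → H' ≤ H →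
    (∀ h ∈ H, ∀ x ∈ H', h * x * h⁻¹ ∈ H') → H' ≠ H → ∀ S : Finset ℕ,
      ∃ (l : ℕ) (A : ValuationSubring Qbar) (σ : GQ),
        l.Prime ∧ l ∉ S ∧ A.LiesOverPrime l ∧ A.IsFrobeniusAt σ l ∧ σ ∈ H ∧ σ ∉ H'

/-! ### A fact on cyclic groups of prime-power order -/

section Cyclic

variable {G : Type*} [Group G]

/-- If `g` has order `r ^ a` (`r` prime, `a ≥ 1`), every element of `⟨g⟩` outside `⟨g ^ r⟩`
generates `⟨g⟩`. -/
theorem mem_zpowers_of_not_mem_zpowers_pow {g x : G} {r a : ℕ} (hr : r.Prime)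
    (hord : orderOf g = r ^ a) (hx : x ∈ Subgroup.zpowers g)
    (hx' : x ∉ Subgroup.zpowers (g ^ r)) : g ∈ Subgroup.zpowers x := by
  obtain ⟨k, rfl⟩ := Subgroup.mem_zpowers_iff.mp hx
  -- `r ∤ k`
  have hrk : ¬ (r : ℤ) ∣ k := by
    rintro ⟨m, rfl⟩
    apply hx'
    refine Subgroup.mem_zpowers_iff.mpr ⟨m, ?_⟩
    rw [zpow_mul, zpow_natCast]
  have hcop : IsCoprime k ((r ^ a : ℕ) : ℤ) := by
    rw [Nat.cast_pow]
    refine IsCoprime.pow_right ?_
    rw [isCoprime_comm]
    exact (Prime.coprime_iff_not_dvd (Nat.prime_iff_prime_int.mp hr)).mpr hrk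
  obtain ⟨u, v, huv⟩ := hcop
  refine Subgroup.mem_zpowers_iff.mpr ⟨u, ?_⟩
  -- `(g^k)^u = g^(u k) = g^(1 - v r^a) = g`
  have h1 : g ^ ((r ^ a : ℕ) : ℤ) = 1 := by
    rw [zpow_natCast, ← hord, pow_orderOf_eq_one]
  calc (g ^ k) ^ u = g ^ (u * k) := by rw [← zpow_mul, mul_comm]
    _ = g ^ (1 - v * ((r ^ a : ℕ) : ℤ)) := by rw [← huv]; ring_nf
    _ = g := by
      rw [zpow_sub, zpow_one, mul_comm v, zpow_mul, h1, one_zpow, inv_one, mul_one]

theorem not_mem_zpowers_pow_self {g : G} {r a : ℕ} (hr : r.Prime) (ha : 0 < a)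
    (hord : orderOf g = r ^ a) : g ∉ Subgroup.zpowers (g ^ r) := by
  intro hmem
  obtain ⟨k, hk⟩ := Subgroup.mem_zpowers_iff.mp hmem
  -- `g ^ (r k - 1) = 1`
  have h1 : g ^ ((r : ℤ) * k - 1) = 1 := by
    rw [zpow_sub, zpow_one, zpow_mul, zpow_natCast, hk, mul_inv_cancel]
  have h2 : ((orderOf g : ℕ) : ℤ) ∣ (r : ℤ) * k - 1 := orderOf_dvd_iff_zpow_eq_one.mpr h1
  rw [hord] at h2
  have h3 : (r : ℤ) ∣ ((r ^ a : ℕ) : ℤ) := by
    rw [Nat.cast_pow]
    exact dvd_pow_self _ ha.ne'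
  have h4 : (r : ℤ) ∣ (r : ℤ) * k - 1 := h3.trans h2
  have h5 : (r : ℤ) ∣ 1 := by
    have := dvd_sub (dvd_mul_right (r : ℤ) k) h4
    simpa using this
  have := Int.natCast_dvd_natCast.mp (by simpa using h5 : ((r : ℕ) : ℤ) ∣ ((1 : ℕ) : ℤ))
  exact hr.one_lt.ne' (Nat.dvd_one.mp this)

end Cyclic

/-! ### `Qbar` -/

theorem isAlgebraic_Qbar : Algebra.IsAlgebraic ℚ Qbar := by
  have h : (DivisionRing.toRatAlgebra : Algebra ℚ Qbar) = AlgebraicClosure.instAlgebra ℚ :=
    Subsingleton.elim _ _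
  rw [h]
  infer_instance

theorem isIntegral_Qbar : Algebra.IsIntegral ℚ Qbar :=
  haveI := isAlgebraic_Qbar
  Algebra.IsAlgebraic.isIntegral

/-! ### Openness of pointwise stabilisers -/

section Open

variable (E : WeierstrassCurve ℚ)

/-- The stabiliser of a point of `E(Qbar)` contains an open subgroup. -/
theorem exists_open_stabilizer_point (T : ((E : Affine ℚ)⁄Qbar).Point) :
    ∃ U : Subgroup GQ, IsOpen (U : Set GQ) ∧ ∀ σ ∈ U, σ • T = T := by
  cases T with
  | zero => exact ⟨⊤, isOpen_univ, fun σ _ => rfl⟩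
  | some x y h =>
    have := isIntegral_Qbar
    refine ⟨MulAction.stabilizer GQ x ⊓ MulAction.stabilizer GQ y, ?_, ?_⟩
    · exact (stabilizer_isOpen_of_isIntegral (K := ℚ) (L := Qbar) x).inter
        (stabilizer_isOpen_of_isIntegral (K := ℚ) (L := Qbar) y)
    · rintro σ ⟨hx, hy⟩
      have hx' : σ x = x := hx
      have hy' : σ y = y := hy
      have e : σ • (Point.some x y h : ((E : Affine ℚ)⁄Qbar).Point) = Point.some (σ x) (σ y)
          ((WeierstrassCurve.Affine.baseChange_nonsingular _ σ.toAlgHom.injective ..).mpr h) := rfl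
      rw [e]
      congr 1

/-- The pointwise stabiliser of the finite module `E[p](Qbar)` contains an open subgroup. -/
theorem exists_open_fixing (p : ℕ)
    [Finite (Submodule.torsionBy ℤ ((E : Affine ℚ)⁄Qbar).Point p)] :
    ∃ U : Subgroup GQ, IsOpen (U : Set GQ) ∧
      ∀ σ ∈ U, ∀ x : Submodule.torsionBy ℤ ((E : Affine ℚ)⁄Qbar).Point p, σ • x = x := by
  classical
  choose U hU hfix using fun x : Submodule.torsionBy ℤ ((E : Affine ℚ)⁄Qbar).Point p =>
    exists_open_stabilizer_point E x.1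
  refine ⟨⨅ x, U x, ?_, ?_⟩
  · have : ((⨅ x, U x : Subgroup GQ) : Set GQ) = ⋂ x, (U x : Set GQ) := by
      ext σ; simp
    rw [this]
    exact isOpen_iInter_of_finite hU
  · intro σ hσ x
    apply Subtype.ext
    exact hfix x σ ((Subgroup.mem_iInf.mp hσ) x)

end Open

/-! ### Transport along a change of variables over `ℚ` -/

section Transport

open Fermat.Agent.S05.VarChange

/-- Abstract form: if `C • W₀ = W₁` there is an injective homomorphism `W₁(F) → W₀(F)` given by the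
usual formulas. -/
theorem exists_hom_of_eq {F : Type*} [Field F] [DecidableEq F] (W₀ W₁ : WeierstrassCurve F)
    (C : WeierstrassCurve.VariableChange F) (h : C • W₀ = W₁) :
    ∃ f : W₁.toAffine.Point →+ W₀.toAffine.Point, Function.Injective f ∧
      ∀ (x y : F) (hxy : W₁.toAffine.Nonsingular x y),
        ∃ h' : W₀.toAffine.Nonsingular (fx C x) (fy C x y),
          f (Point.some x y hxy) = Point.some (fx C x) (fy C x y) h' := by
  subst h
  exact ⟨pointHom W₀ C, pointHom_injective W₀ C, fun x y hxy => ⟨_, rfl⟩⟩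

/-- If `C • E = E'` over `ℚ`, there is an injective `G_ℚ`-equivariant homomorphism
`E'(Qbar) → E(Qbar)`. -/
theorem exists_equivariant_hom (E E' : WeierstrassCurve ℚ) (C : WeierstrassCurve.VariableChange ℚ)
    (h : C • E = E') :
    ∃ f : ((E' : Affine ℚ)⁄Qbar).Point →+ ((E : Affine ℚ)⁄Qbar).Point, Function.Injective f ∧
      ∀ (σ : GQ) (P : ((E' : Affine ℚ)⁄Qbar).Point), f (σ • P) = σ • f P := by
  have key : (C.map (algebraMap ℚ Qbar)) • ((E : Affine ℚ)⁄Qbar) = ((E' : Affine ℚ)⁄Qbar) := by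
    change (C.map (algebraMap ℚ Qbar)) • (E.map (algebraMap ℚ Qbar)) = E'.map (algebraMap ℚ Qbar)
    rw [WeierstrassCurve.map_variableChange, h]
  obtain ⟨f, hinj, hf⟩ := exists_hom_of_eq ((E : Affine ℚ)⁄Qbar)
    ((E' : Affine ℚ)⁄Qbar) (C.map (algebraMap ℚ Qbar)) key
  refine ⟨f, hinj, fun σ P => ?_⟩
  cases P with
  | zero =>
    change f 0 = σ • f 0
    rw [_root_.map_zero]
    rfl
  | some x y hxy =>
    have e1 : σ • (Point.some x y hxy : ((E' : Affine ℚ)⁄Qbar).Point) = Point.some (σ x) (σ y)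
        ((WeierstrassCurve.Affine.baseChange_nonsingular _ σ.toAlgHom.injective ..).mpr hxy) := rfl
    obtain ⟨h1, hf1⟩ := hf x y hxy
    obtain ⟨h2, hf2⟩ := hf (σ x) (σ y)
      ((WeierstrassCurve.Affine.baseChange_nonsingular _ σ.toAlgHom.injective ..).mpr hxy)
    rw [e1]
    refine hf2.trans ?_
    have e2 : σ • (f (Point.some x y hxy)) = Point.some
        (σ (fx (C.map (algebraMap ℚ Qbar)) x)) (σ (fy (C.map (algebraMap ℚ Qbar)) x y))
        ((WeierstrassCurve.Affine.baseChange_nonsingular _ σ.toAlgHom.injective ..).mpr h1) := by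
      rw [hf1]
      rfl
    rw [e2]
    have hu : σ ((C.map (algebraMap ℚ Qbar)).u : Qbar) = ((C.map (algebraMap ℚ Qbar)).u : Qbar) :=
      σ.commutes (C.u : ℚ)
    have hr : σ (C.map (algebraMap ℚ Qbar)).r = (C.map (algebraMap ℚ Qbar)).r := σ.commutes C.r
    have hs : σ (C.map (algebraMap ℚ Qbar)).s = (C.map (algebraMap ℚ Qbar)).s := σ.commutes C.s
    have ht : σ (C.map (algebraMap ℚ Qbar)).t = (C.map (algebraMap ℚ Qbar)).t := σ.commutes C.t
    have hx : fx (C.map (algebraMap ℚ Qbar)) (σ x) = σ (fx (C.map (algebraMap ℚ Qbar)) x) := by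
      unfold fx
      rw [map_add, map_mul, map_pow, hu, hr]
    have hy : fy (C.map (algebraMap ℚ Qbar)) (σ x) (σ y) =
        σ (fy (C.map (algebraMap ℚ Qbar)) x y) := by
      unfold fy
      rw [map_add, map_add, map_mul, map_mul, map_mul, map_pow, map_pow, hu, hs, ht]
    exact some_eq_some _ _ hx hy

end Transport

/-! ### The assembly -/

section Main

open Fermat.Agent.S41.R3.GroupLemma

variable (E : WeierstrassCurve ℚ) [E.IsElliptic] {W : WeierstrassCurve ℤ}

/-- The discriminant of an integral model of an elliptic curve is nonzero. -/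
theorem Δ_ne_zero_of_isIntegralModelOf (hW : W.IsIntegralModelOf E) : W.Δ ≠ 0 := by
  obtain ⟨C, hC⟩ := hW
  intro h0
  have h1 : (W.map (Int.castRingHom ℚ)).Δ = 0 := by
    rw [WeierstrassCurve.map_Δ, h0, _root_.map_zero]
  rw [← hC, WeierstrassCurve.variableChange_Δ] at h1
  have hE : E.Δ ≠ 0 := E.isUnit_Δ.ne_zero
  have hu : ((C.u⁻¹ : ℚˣ) : ℚ) ^ 12 ≠ 0 := pow_ne_zero _ (Units.ne_zero _)
  exact (mul_ne_zero hu hE) h1

/-- An abelian group of exponent `2` acting on a plane over `ZMod p` (`p` odd) has a stable line: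
if `N` acts trivially on `V` and contains all squares and commutators of `Γ`, then `V` has a
`Γ`-stable submodule different from `⊥` and `⊤`. -/
theorem exists_stable_line {p : ℕ} [Fact p.Prime] (hp2 : p ≠ 2) {V : Type*} [AddCommGroup V]
    [Module (ZMod p) V] [Module.Finite (ZMod p) V] (h2 : Module.finrank (ZMod p) V = 2)
    {Γ : Type*} [Group Γ] [DistribMulAction Γ V] (N : Subgroup Γ)
    (htriv : ∀ σ ∈ N, ∀ v : V, σ • v = v)
    (hsq : ∀ σ : Γ, σ * σ ∈ N) (hcomm : ∀ σ τ : Γ, σ * τ * σ⁻¹ * τ⁻¹ ∈ N) :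
    ∃ L : Submodule (ZMod p) V, (∀ σ : Γ, ∀ x ∈ L, σ • x ∈ L) ∧ L ≠ ⊥ ∧ L ≠ ⊤ := by
  classical
  have : Nontrivial V := Module.nontrivial_of_finrank_pos (R := ZMod p) (by rw [h2]; norm_num)
  have hsq' : ∀ (σ : Γ) (v : V), σ • σ • v = v := fun σ v => by
    rw [← mul_smul]; exact htriv _ (hsq σ) v
  have hcomm' : ∀ (σ τ : Γ) (v : V), σ • τ • v = τ • σ • v := by
    intro σ τ v
    have h := htriv _ (hcomm σ τ) (τ • σ • v)
    rw [mul_smul, mul_smul, mul_smul, inv_smul_smul, inv_smul_smul] at h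
    exact h
  have h2ne : (2 : ZMod p) ≠ 0 := by
    intro h
    have h' : ((2 : ℕ) : ZMod p) = 0 := by exact_mod_cast h
    rw [ZMod.natCast_eq_zero_iff] at h'
    exact hp2 ((Nat.prime_dvd_prime_iff_eq (Fact.out : p.Prime) Nat.prime_two).mp h')
  by_cases hall : ∀ (σ : Γ), (∀ v : V, σ • v = v) ∨ (∀ v : V, σ • v = -v)
  · -- everything acts by `±1`: any line is stable
    obtain ⟨v, hv⟩ := exists_ne (0 : V)
    refine ⟨Submodule.span (ZMod p) {v}, ?_, ?_, ?_⟩
    · intro σ x hx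
      rcases hall σ with h | h
      · rw [h]; exact hx
      · rw [h]; exact Submodule.neg_mem _ hx
    · exact fun h => hv ((Submodule.span_singleton_eq_bot).mp h)
    · intro h
      have h1 : Module.finrank (ZMod p) (Submodule.span (ZMod p) {v}) = 1 :=
        finrank_span_singleton hv
      rw [h, finrank_top, h2] at h1
      omega
  · -- some `σ` is not `±1`: its `+1`-eigenspace
    push Not at hall
    obtain ⟨σ, ⟨v₁, hv₁⟩, ⟨v₂, hv₂⟩⟩ := hall
    let f : V →ₗ[ZMod p] V := (DistribSMul.toAddMonoidHom V σ).toZModLinearMap p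
    have hf : ∀ v, f v = σ • v := fun v => rfl
    refine ⟨LinearMap.ker (f - LinearMap.id), ?_, ?_, ?_⟩
    · intro τ x hx
      rw [LinearMap.mem_ker, LinearMap.sub_apply, LinearMap.id_apply, hf, sub_eq_zero] at hx ⊢
      rw [hcomm', hx]
    · intro h
      have hmem : σ • v₂ + v₂ ∈ LinearMap.ker (f - LinearMap.id) := by
        rw [LinearMap.mem_ker, LinearMap.sub_apply, LinearMap.id_apply, hf, smul_add, hsq']
        abel
      rw [h, Submodule.mem_bot] at hmem
      exact hv₂ (eq_neg_of_add_eq_zero_left hmem)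
    · intro h
      have hmem : v₁ ∈ LinearMap.ker (f - LinearMap.id) := by rw [h]; trivial
      rw [LinearMap.mem_ker, LinearMap.sub_apply, LinearMap.id_apply, hf, sub_eq_zero] at hmem
      exact hv₁ hmem

/-- **(P7), general form.** Let `H₀` be an open normal subgroup of `G_ℚ` containing all squares and
commutators (e.g. `H₀ = ⊤`, or the elements acting on `μ_N` through squares of `(ℤ/N)ˣ`).
If `E[p]` is irreducible then, outside any finite set of primes, some Frobenius element `τ ∈ H₀`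
at a good prime `ℓ ≠ p` has `p ∤ ℓ + 1 - a_ℓ(W)`. -/
theorem exists_good_frobenius (hFP : FrobProducer) (hW : W.IsIntegralModelOf E) {p : ℕ}
    (hp : p.Prime) (hp2 : p ≠ 2)
    (hirr : GaloisRepIsIrreducible (K := Qbar) ℚ (E : Affine ℚ) p)
    (H₀ : Subgroup GQ) [H₀.Normal] (hH₀ : IsOpen (H₀ : Set GQ))
    (hsq : ∀ σ : GQ, σ * σ ∈ H₀) (hcomm : ∀ σ τ : GQ, σ * τ * σ⁻¹ * τ⁻¹ ∈ H₀) (S : Finset ℕ) :
    ∃ (l : ℕ) (A : ValuationSubring Qbar) (τ : GQ), l.Prime ∧ l ∉ S ∧ W.IsGoodPrimeFor l ∧ l ≠ p ∧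
      A.LiesOverPrime l ∧ A.IsFrobeniusAt τ l ∧ τ ∈ H₀ ∧
      ¬ (p : ℤ) ∣ (l : ℤ) + 1 - W.apOfModel l := by
  classical
  have : Fact p.Prime := ⟨hp⟩
  by_contra hcon
  push Not at hcon
  -- the module `V = E[p](Qbar)`
  set V := Submodule.torsionBy ℤ ((E : Affine ℚ)⁄Qbar).Point p with hV
  have hcard : Nat.card V = p ^ 2 :=
    CardTorsion.card_torsionBy_eq (E.map (algebraMap ℚ Qbar)) hp hp2
  have : Finite V := Nat.finite_of_card_ne_zero (by rw [hcard]; exact pow_ne_zero 2 hp.pos.ne')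
  have : Module.Finite (ZMod p) V := Module.Finite.of_finite
  have h2 : Module.finrank (ZMod p) V = 2 := by
    have h := Module.natCard_eq_pow_finrank (K := ZMod p) (V := V)
    rw [hcard, Nat.card_zmod] at h
    exact (Nat.pow_right_injective hp.two_le h).symm
  obtain ⟨U, hUopen, hUfix⟩ := exists_open_fixing E p
  -- transport from the integral model
  obtain ⟨C, hC⟩ := hW
  obtain ⟨f, hfinj, hfeq⟩ := exists_equivariant_hom E (W.map (Int.castRingHom ℚ)) C hC
  have hΔ : W.Δ ≠ 0 := Δ_ne_zero_of_isIntegralModelOf E ⟨C, hC⟩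
  -- the finite set of excluded primes
  set T : Finset ℕ := S ∪ {p} ∪ W.Δ.natAbs.primeFactors with hT
  -- every element of `H₀` of prime-power order fixes a nonzero vector
  have hfix : ∀ σ ∈ H₀, IsPrimePow (orderOf (toGL p V GQ σ)) →
      ∃ v : V, v ≠ 0 ∧ σ • v = v := by
    intro σ hσ₀ hpp
    obtain ⟨r, a, hr, ha, hra⟩ := hpp
    have hr' : r.Prime := Nat.prime_iff.mpr hr
    set g := toGL p V GQ σ with hg
    -- the two open subgroups
    set H : Subgroup GQ := (Subgroup.zpowers g).comap (toGL p V GQ) ⊓ H₀ with hH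
    set H' : Subgroup GQ := (Subgroup.zpowers (g ^ r)).comap (toGL p V GQ) ⊓ H₀ with hH'
    have hUker : ∀ τ ∈ U, toGL p V GQ τ = 1 := by
      intro τ hτ
      apply Units.ext
      apply LinearMap.ext
      intro v
      rw [toGL_apply, Units.val_one, Module.End.one_apply]
      exact hUfix τ hτ v
    have hUH' : U ⊓ H₀ ≤ H' := by
      intro τ hτ
      refine ⟨?_, hτ.2⟩
      change toGL p V GQ τ ∈ Subgroup.zpowers (g ^ r)
      rw [hUker τ hτ.1]
      exact one_mem _
    have hzle : Subgroup.zpowers (g ^ r) ≤ Subgroup.zpowers g :=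
      Subgroup.zpowers_le.mpr (Subgroup.pow_mem _ (Subgroup.mem_zpowers g) r)
    have hH'H : H' ≤ H := fun τ hτ => ⟨hzle hτ.1, hτ.2⟩
    have hUopen' : IsOpen ((U ⊓ H₀ : Subgroup GQ) : Set GQ) := by
      rw [Subgroup.coe_inf]
      exact hUopen.inter hH₀
    have hH'open : IsOpen (H' : Set GQ) := Subgroup.isOpen_mono hUH' hUopen'
    have hHopen : IsOpen (H : Set GQ) := Subgroup.isOpen_mono (hUH'.trans hH'H) hUopen'
    have hnorm : ∀ h ∈ H, ∀ x ∈ H', h * x * h⁻¹ ∈ H' := by
      intro h hh x hx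
      refine ⟨?_, Subgroup.Normal.conj_mem inferInstance x hx.2 h⟩
      have hh1 : toGL p V GQ h ∈ Subgroup.zpowers g := hh.1
      have hx1 : toGL p V GQ x ∈ Subgroup.zpowers (g ^ r) := hx.1
      have hx2 : toGL p V GQ x ∈ Subgroup.zpowers g := hzle hx1
      obtain ⟨m, hm⟩ := Subgroup.mem_zpowers_iff.mp hh1
      obtain ⟨n, hn⟩ := Subgroup.mem_zpowers_iff.mp hx2
      have hc : toGL p V GQ h * toGL p V GQ x = toGL p V GQ x * toGL p V GQ h := by
        rw [← hm, ← hn, ← zpow_add, ← zpow_add, add_comm]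
      change toGL p V GQ (h * x * h⁻¹) ∈ Subgroup.zpowers (g ^ r)
      rw [map_mul, map_mul, map_inv, hc, mul_inv_cancel_right]
      exact hx1
    have hσH : σ ∈ H := ⟨Subgroup.mem_zpowers g, hσ₀⟩
    have hσH' : σ ∉ H' := fun h => not_mem_zpowers_pow_self hr' ha hra.symm h.1
    have hne : H' ≠ H := fun h => hσH' (h ▸ hσH)
    obtain ⟨l, A, τ, hl, hlT, hA, hτ, hτH, hτH'⟩ := hFP H H' hHopen hH'open hH'H hnorm hne T
    -- `l` is good, `≠ p`, `∉ S`
    have hlS : l ∉ S := fun h => hlT (by rw [hT]; simp [h])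
    have hlp : l ≠ p := fun h => hlT (by rw [hT]; simp [h])
    have hgood : W.IsGoodPrimeFor l := by
      intro hdvd
      apply hlT
      rw [hT]
      refine Finset.mem_union_right _ ?_
      rw [Nat.mem_primeFactors]
      exact ⟨hl, Int.natCast_dvd.mp hdvd, Int.natAbs_ne_zero.mpr hΔ⟩
    have hdvd := hcon l A τ hl hlS hgood hlp hA hτ hτH.2
    obtain ⟨Q, hQ0, hτQ⟩ := CurveInput.exists_fixed_point W hl hgood hp hp2 hlp.symm hdvd A hA τ hτ
    -- transport `Q` to `V`
    have hfQ : f Q.1 ∈ V := by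
      have h1 := Q.2
      rw [Submodule.mem_torsionBy_iff] at h1
      rw [hV, Submodule.mem_torsionBy_iff, ← map_zsmul, h1, _root_.map_zero]
    refine ⟨⟨f Q.1, hfQ⟩, ?_, ?_⟩
    · intro h0
      apply hQ0
      apply Subtype.ext
      apply hfinj
      change f Q.1 = f 0
      rw [_root_.map_zero]
      exact congrArg Subtype.val h0
    · -- `τ` fixes it, and `g` is a power of the image of `τ`
      have hτv : τ • (⟨f Q.1, hfQ⟩ : V) = ⟨f Q.1, hfQ⟩ := by
        apply Subtype.ext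
        change τ • f Q.1 = f Q.1
        rw [← hfeq, show τ • Q.1 = Q.1 from congrArg Subtype.val hτQ]
      have hgen : g ∈ Subgroup.zpowers (toGL p V GQ τ) :=
        mem_zpowers_of_not_mem_zpowers_pow hr' hra.symm hτH.1 (fun h => hτH' ⟨h, hτH.2⟩)
      obtain ⟨m, hm⟩ := Subgroup.mem_zpowers_iff.mp hgen
      -- the stabiliser of the vector in `GL(V)` contains the powers of the image of `τ`
      have hmem : toGL p V GQ τ ∈ MulAction.stabilizer (Module.End (ZMod p) V)ˣ
          (⟨f Q.1, hfQ⟩ : V) := by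
        rw [MulAction.mem_stabilizer_iff]
        change ((toGL p V GQ τ : (Module.End (ZMod p) V)ˣ) : Module.End (ZMod p) V) _ = _
        rw [toGL_apply]
        exact hτv
      have hgmem := Subgroup.zpow_mem _ hmem m
      rw [hm, MulAction.mem_stabilizer_iff] at hgmem
      have h3 : ((g : (Module.End (ZMod p) V)ˣ) : Module.End (ZMod p) V) ⟨f Q.1, hfQ⟩ =
          σ • (⟨f Q.1, hfQ⟩ : V) := toGL_apply σ _
      rw [← h3]
      exact hgmem
  -- the group lemma: `H₀` acts trivially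
  have htriv := acts_trivially_of_primePow_fixed h2 H₀
    (fun W' hW' => hirr.2 W' hW') hfix
  -- an abelian image of exponent `2` has a stable line
  obtain ⟨L, hLst, hL0, hL1⟩ := exists_stable_line hp2 h2 H₀ htriv hsq hcomm
  rcases hirr.2 L hLst with h | h
  · exact hL0 h
  · exact hL1 h

/-- **(P7)**, plain form: `E[p]` irreducible ⟹ outside any finite set there is a good prime
`ℓ ≠ p` with `p ∤ ℓ + 1 - a_ℓ(W)`. -/
theorem exists_good_prime (hFP : FrobProducer) (hW : W.IsIntegralModelOf E) {p : ℕ}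
    (hp : p.Prime) (hp2 : p ≠ 2)
    (hirr : GaloisRepIsIrreducible (K := Qbar) ℚ (E : Affine ℚ) p) (S : Finset ℕ) :
    ∃ l : ℕ, l.Prime ∧ l ∉ S ∧ W.IsGoodPrimeFor l ∧ l ≠ p ∧
      ¬ (p : ℤ) ∣ (l : ℤ) + 1 - W.apOfModel l := by
  obtain ⟨l, A, τ, hl, hlS, hgood, hlp, -, -, -, hnd⟩ :=
    exists_good_frobenius E hFP hW hp hp2 hirr ⊤ isOpen_univ (fun σ => Subgroup.mem_top _)
      (fun σ τ => Subgroup.mem_top _) S
  exact ⟨l, hl, hlS, hgood, hlp, hnd⟩

end Main

end Fermat.Agent.S41.R3.NonEisenstein
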